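import Mathlib
import Fermat.Agent.G.Red.Val
import Fermat.Agent.S24.PlaceOrd
import Fermat.Agent.TT.Alpha.Norm

/-!
# PROGRAM MR (S44), block `mrr` : RIGIDITY.  THE SPEC (literal statements, no proofs)

Owner: helper12 (second: helper29).  Namespace `Fermat.Agent.MR`, prefix `mrr` / `Mrr`.

**(R-ABS) = ABSTRACT SECOND-ORDER RIGIDITY** on a two-component model.  Everything is stated over
main's `Place` / `GrdVal` / `SemilinearAut` / `TtalIsU`; no orbit polynomials, no depths, no germs.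

## Data
* `A ⊂ K` a valuation ring, `k = ResidueField A`; `F / K` the function field of the generic fibre;
  `V₁ V₂` the two Gauss valuation rings, `red_j : V_j →+* F_j` the reductions onto the function
  fields of the two components (as in `TtgModel`);
* `σ : SemilinearAut K F` (in the application: an element of the inertia group of `K₀(ζ_p)` whose
  image generates `Gal(L / K₀(ζ_p)) = ℤ/p`);
* `FL : Subfield F` the `σ`-stable subfield of **`L`-rational functions** (application: `F^{I_L}`);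
* `ϖ : K` a uniformiser of `L` (a nonzero nonunit of `A`, constant function in `FL`);
* `ν₁ ν₂ : S → Place k F_j` the nodes; `cen₁ Q`, `cen₂ Q`, `cenN s` : the sets of places of `F / K`
  centred at a closed point of the first component, of the second component, at the node `s`
  (only the sets attached to NON-nodes are used for `cen₁`, `cen₂`).

## Hypotheses = the fields of `MrrModel` (one line each, with the block that supplies it)
## Output
* `MrrCoreSpec` : **the rigidity statement in local-equation form** : if `h2 ∈ FL` has, at every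
  closed point, the same orders as `mrrH σ q = σ²q · q / (σq)²` for a local function `q ∈ FL`
  normalised by `q ∈ V_jˣ` at a smooth point of the `j`-th component and `q ∈ V₁ˣ`,
  `ϖ^{-n_s} q ∈ V₂ˣ` at the node `s`, then `γ̄ · n_s` does not depend on `s`, where
  `σ²ϖ · ϖ / (σϖ)² = 1 + γ ϖ² mod ϖ³`.
* `MrrDivSpec` : the same with a divisor `D`, `(σ - 1)² D = div h2`, and local equations of `D`.
* `MrrGammaSpec` : `γ = c²` from (P1c) `σϖ = ϖ (1 + c ϖ + r ϖ²)`.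
* `MrrModPSpec` : `c̄ ≠ 0`, `char k = p` ⟹ `n_s ≡ n_t mod p`.
* `MrrRegOfValSpec` : the `V_j`-only regularity `reg_j` follows from the `V₁ ∩ V₂`-version (the form
  of `TtgModel.val₁`) and a separating function.
-/

set_option autoImplicit false
set_option linter.unusedSectionVars false
set_option linter.unusedVariables false

noncomputable section

namespace Fermat.Agent.MR

open AlgebraicCurve IsLocalRing Fermat.Agent.G Fermat.Agent.TT

/-- the second difference quotient `σ²q · q / (σq)²` (multiplicative `(σ - 1)²`). -/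
def mrrH {K F : Type*} [Field K] [Field F] [Algebra K F] (σ : SemilinearAut K F) (q : F) : F :=
  (σ • σ • q) * q / (σ • q) ^ 2

section Model

variable {K : Type*} [Field K] (A : ValuationSubring K) {F : Type*} [Field F] [Algebra K F]
variable {F₁ F₂ : Type*} [Field F₁] [Field F₂] [Algebra (ResidueField A) F₁]
  [Algebra (ResidueField A) F₂]
variable {S : Type*}

/-- **THE ABSTRACT MODEL FOR RIGIDITY** (hypotheses of (R-ABS)). -/
structure MrrModel (V₁ V₂ : ValuationSubring F) (red₁ : V₁ →+* F₁) (red₂ : V₂ →+* F₂)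
    (σ : SemilinearAut K F) (FL : Subfield F) (ϖ : K)
    (ν₁ : S → Place (ResidueField A) F₁) (ν₂ : S → Place (ResidueField A) F₂)
    (cen₁ : Place (ResidueField A) F₁ → Set (Place K F))
    (cen₂ : Place (ResidueField A) F₂ → Set (Place K F))
    (cenN : S → Set (Place K F)) : Prop where
  /-- RINGS (landed `TtgModel.ker₁`): `ker red₁ = 𝔪_{V₁}`. -/
  ker₁ : ∀ x : V₁, red₁ x = 0 ↔ (x : F) ∈ V₁.nonunits
  /-- RINGS (landed `TtgModel.ker₂`). -/
  ker₂ : ∀ x : V₂, red₂ x = 0 ↔ (x : F) ∈ V₂.nonunits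
  /-- RINGS (landed `TtbRed`): integral constants lie in `V₁`. -/
  const₁ : ∀ a : A, algebraMap K F (a : K) ∈ V₁
  /-- RINGS (landed `TtbRed`). -/
  const₂ : ∀ a : A, algebraMap K F (a : K) ∈ V₂
  /-- RINGS (landed `TtbRed`): the reduction of a constant. -/
  rc₁ : ∀ (a : A) (h : algebraMap K F (a : K) ∈ V₁),
    red₁ ⟨algebraMap K F (a : K), h⟩ = algebraMap (ResidueField A) F₁ (residue A a)
  /-- RINGS (landed `TtbRed`). -/
  rc₂ : ∀ (a : A) (h : algebraMap K F (a : K) ∈ V₂),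
    red₂ ⟨algebraMap K F (a : K), h⟩ = algebraMap (ResidueField A) F₂ (residue A a)
  /-- UNIFORMISER (`mre`): `ϖ` is a nonzero nonunit of `A`. -/
  ϖ_mem : ϖ ∈ A.nonunits
  /-- UNIFORMISER. -/
  ϖ_ne : ϖ ≠ 0
  /-- UNIFORMISER: `ϖ` is `L`-rational. -/
  ϖ_FL : algebraMap K F ϖ ∈ FL
  /-- GALOIS (`mrg`): `FL` is `σ`-stable. -/
  σ_FL : ∀ f ∈ FL, σ • f ∈ FL
  /-- GALOIS (`mrg`, (VG)): the `V₁`-value of an `L`-rational function is a multiple of `v(ϖ)`. -/
  vg₁ : ∀ f ∈ FL, f ≠ 0 → ∃ n : ℤ, TtalIsU V₁ (algebraMap K F ϖ ^ n * f)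
  /-- GALOIS (`mrg`, (VG)). -/
  vg₂ : ∀ f ∈ FL, f ≠ 0 → ∃ n : ℤ, TtalIsU V₂ (algebraMap K F ϖ ^ n * f)
  /-- GALOIS (`mrg`, (RES)): `O_L → k` is onto. -/
  res : ∀ c : ResidueField A, ∃ a : A, algebraMap K F (a : K) ∈ FL ∧ residue A a = c
  /-- GALOIS (`mrg`, (MOVE₁), from (P1) `σ ≡ id mod ϖ²` on `O_L`): `σ` moves an `L`-rational
  element of `V₁` by `ϖ² V₁`. -/
  move₁ : ∀ f ∈ FL, f ∈ V₁ → ∃ y ∈ V₁, σ • f - f = algebraMap K F ϖ ^ 2 * y
  /-- GALOIS (`mrg`, (MOVE₂)). -/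
  move₂ : ∀ f ∈ FL, f ∈ V₂ → ∃ y ∈ V₂, σ • f - f = algebraMap K F ϖ ^ 2 * y
  /-- CURVES (FF/S24 on main): a function on the first component without poles is constant. -/
  creg₁ : ∀ x : F₁, (∀ Q : Place (ResidueField A) F₁, x ∈ Q.toValuationSubring) →
    ∃ c : ResidueField A, x = algebraMap (ResidueField A) F₁ c
  /-- CURVES. -/
  creg₂ : ∀ x : F₂, (∀ Q : Place (ResidueField A) F₂, x ∈ Q.toValuationSubring) →
    ∃ c : ResidueField A, x = algebraMap (ResidueField A) F₂ c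
  /-- NODE-LOCAL (`mrn`, (LOC-REG₁)): at a closed point `Q` of the first component which is not a
  node, an element of `V₁` without poles at the places centred at `Q` has a reduction regular at
  `Q`.  (`V₁`-only form; see `MrrRegOfValSpec` for the passage from the `V₁ ∩ V₂`-form.) -/
  reg₁ : ∀ Q : Place (ResidueField A) F₁, (∀ s, Q ≠ ν₁ s) → ∀ (f : F) (hf : f ∈ V₁),
    (∀ R ∈ cen₁ Q, f ∈ R.toValuationSubring) → red₁ ⟨f, hf⟩ ∈ Q.toValuationSubring
  /-- NODE-LOCAL (`mrn`, (LOC-REG₂)). -/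
  reg₂ : ∀ Q : Place (ResidueField A) F₂, (∀ s, Q ≠ ν₂ s) → ∀ (f : F) (hf : f ∈ V₂),
    (∀ R ∈ cen₂ Q, f ∈ R.toValuationSubring) → red₂ ⟨f, hf⟩ ∈ Q.toValuationSubring
  /-- NODE-LOCAL (`mrn`, (LOC-GLUE_s)): at a node, an element of `V₁ ∩ V₂` without poles at the
  places centred at the node has ONE value on the two branches. -/
  glue : ∀ (s : S) (f : F) (h₁ : f ∈ V₁) (h₂ : f ∈ V₂),
    (∀ R ∈ cenN s, f ∈ R.toValuationSubring) →
    ∃ c : ResidueField A, GrdVal (ν₁ s) (red₁ ⟨f, h₁⟩) c ∧ GrdVal (ν₂ s) (red₂ ⟨f, h₂⟩) c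
  /-- the closed fibre has a node. -/
  nodes : Nonempty S

end Model

/-- **(γ)** : `σ²ϖ · ϖ = (σϖ)² (1 + γ ϖ² + y ϖ³)` with `y ∈ A` (on constants, `σ` acts through
`baseAut σ`). -/
def MrrGamma {K F : Type*} [Field K] [Field F] [Algebra K F] (A : ValuationSubring K)
    (σ : SemilinearAut K F) (ϖ : K) (γ : A) : Prop :=
  ∃ y ∈ A, SemilinearAut.baseAut σ (SemilinearAut.baseAut σ ϖ) * ϖ
    = (SemilinearAut.baseAut σ ϖ) ^ 2 * (1 + (γ : K) * ϖ ^ 2 + y * ϖ ^ 3)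

/-- **(R-ABS), LOCAL-EQUATION FORM.** -/
def MrrCoreSpec : Prop :=
  ∀ {K : Type} [Field K] (A : ValuationSubring K) {F : Type} [Field F] [Algebra K F]
    {F₁ F₂ : Type} [Field F₁] [Field F₂] [Algebra (ResidueField A) F₁]
    [Algebra (ResidueField A) F₂] {S : Type}
    (V₁ V₂ : ValuationSubring F) (red₁ : V₁ →+* F₁) (red₂ : V₂ →+* F₂)
    (σ : SemilinearAut K F) (FL : Subfield F) (ϖ : K)
    (ν₁ : S → Place (ResidueField A) F₁) (ν₂ : S → Place (ResidueField A) F₂)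
    (cen₁ : Place (ResidueField A) F₁ → Set (Place K F))
    (cen₂ : Place (ResidueField A) F₂ → Set (Place K F))
    (cenN : S → Set (Place K F)),
    MrrModel A V₁ V₂ red₁ red₂ σ FL ϖ ν₁ ν₂ cen₁ cen₂ cenN →
    ∀ (γ : A), MrrGamma A σ ϖ γ →
    ∀ (h2 : F), h2 ∈ FL → h2 ≠ 0 →
    ∀ (n : S → ℤ),
    -- local functions at the smooth points of the first component
    (∀ Q : Place (ResidueField A) F₁, (∀ s, Q ≠ ν₁ s) → ∃ q : F, q ≠ 0 ∧ q ∈ FL ∧ TtalIsU V₁ q ∧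
      ∀ R ∈ cen₁ Q, R.ord h2 = R.ord (mrrH σ q)) →
    -- local functions at the smooth points of the second component
    (∀ Q : Place (ResidueField A) F₂, (∀ s, Q ≠ ν₂ s) → ∃ q : F, q ≠ 0 ∧ q ∈ FL ∧ TtalIsU V₂ q ∧
      ∀ R ∈ cen₂ Q, R.ord h2 = R.ord (mrrH σ q)) →
    -- local functions at the nodes, `n s = (v₂(q) - v₁(q)) / v(ϖ)`
    (∀ s : S, ∃ q : F, q ≠ 0 ∧ q ∈ FL ∧ TtalIsU V₁ q ∧ TtalIsU V₂ (algebraMap K F ϖ ^ (-(n s)) * q) ∧
      ∀ R ∈ cenN s, R.ord h2 = R.ord (mrrH σ q)) →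
    ∀ s t : S, residue A γ * (((n s : ℤ) : ResidueField A) - ((n t : ℤ) : ResidueField A)) = 0

/-- **(R-ABS), DIVISOR FORM** : `(σ - 1)² D = div h2`, `h2 ∈ FL`, and `L`-rational local equations
of `D` at every closed point. -/
def MrrDivSpec : Prop :=
  ∀ {K : Type} [Field K] (A : ValuationSubring K) {F : Type} [Field F] [Algebra K F]
    {F₁ F₂ : Type} [Field F₁] [Field F₂] [Algebra (ResidueField A) F₁]
    [Algebra (ResidueField A) F₂] {S : Type}
    (V₁ V₂ : ValuationSubring F) (red₁ : V₁ →+* F₁) (red₂ : V₂ →+* F₂)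
    (σ : SemilinearAut K F) (FL : Subfield F) (ϖ : K)
    (ν₁ : S → Place (ResidueField A) F₁) (ν₂ : S → Place (ResidueField A) F₂)
    (cen₁ : Place (ResidueField A) F₁ → Set (Place K F))
    (cen₂ : Place (ResidueField A) F₂ → Set (Place K F))
    (cenN : S → Set (Place K F)),
    MrrModel A V₁ V₂ red₁ red₂ σ FL ϖ ν₁ ν₂ cen₁ cen₂ cenN →
    -- the sets of places centred at a closed point are stable under `σ⁻¹`
    (∀ Q, ∀ R ∈ cen₁ Q, σ⁻¹ • R ∈ cen₁ Q) → (∀ Q, ∀ R ∈ cen₂ Q, σ⁻¹ • R ∈ cen₂ Q) →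
    (∀ s, ∀ R ∈ cenN s, σ⁻¹ • R ∈ cenN s) →
    ∀ (γ : A), MrrGamma A σ ϖ γ →
    ∀ (D : Divisor K F) (h2 : F), h2 ∈ FL → h2 ≠ 0 →
    (∀ R : Place K F, R.ord h2 = ((σ * σ) • D - (2 : ℤ) • (σ • D) + D) R) →
    ∀ (n : S → ℤ),
    (∀ Q : Place (ResidueField A) F₁, (∀ s, Q ≠ ν₁ s) → ∃ q : F, q ≠ 0 ∧ q ∈ FL ∧ TtalIsU V₁ q ∧
      ∀ R ∈ cen₁ Q, R.ord q = D R) →
    (∀ Q : Place (ResidueField A) F₂, (∀ s, Q ≠ ν₂ s) → ∃ q : F, q ≠ 0 ∧ q ∈ FL ∧ TtalIsU V₂ q ∧
      ∀ R ∈ cen₂ Q, R.ord q = D R) →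
    (∀ s : S, ∃ q : F, q ≠ 0 ∧ q ∈ FL ∧ TtalIsU V₁ q ∧ TtalIsU V₂ (algebraMap K F ϖ ^ (-(n s)) * q) ∧
      ∀ R ∈ cenN s, R.ord q = D R) →
    ∀ s t : S, residue A γ * (((n s : ℤ) : ResidueField A) - ((n t : ℤ) : ResidueField A)) = 0

/-- **(γ) from (P1c)** : if `σϖ = ϖ (1 + c ϖ + r ϖ²)` with `c, r ∈ O_L` (integral `L`-rational
constants) and `V₁ ∩ K = A`, then `γ = c²`. -/
def MrrGammaSpec : Prop :=
  ∀ {K : Type} [Field K] (A : ValuationSubring K) {F : Type} [Field F] [Algebra K F]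
    {F₁ F₂ : Type} [Field F₁] [Field F₂] [Algebra (ResidueField A) F₁]
    [Algebra (ResidueField A) F₂] {S : Type}
    (V₁ V₂ : ValuationSubring F) (red₁ : V₁ →+* F₁) (red₂ : V₂ →+* F₂)
    (σ : SemilinearAut K F) (FL : Subfield F) (ϖ : K)
    (ν₁ : S → Place (ResidueField A) F₁) (ν₂ : S → Place (ResidueField A) F₂)
    (cen₁ : Place (ResidueField A) F₁ → Set (Place K F))
    (cen₂ : Place (ResidueField A) F₂ → Set (Place K F))
    (cenN : S → Set (Place K F)),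
    MrrModel A V₁ V₂ red₁ red₂ σ FL ϖ ν₁ ν₂ cen₁ cen₂ cenN →
    (∀ a : K, algebraMap K F a ∈ V₁ → a ∈ A) →
    ∀ (c r : A), algebraMap K F (c : K) ∈ FL → algebraMap K F (r : K) ∈ FL →
    SemilinearAut.baseAut σ ϖ = ϖ * (1 + (c : K) * ϖ + (r : K) * ϖ ^ 2) →
    MrrGamma A σ ϖ (c * c)

/-- **mod `p`** : if `γ̄ ≠ 0` and `char k = p` the conclusion of (R-ABS) reads `n_s ≡ n_t mod p`. -/
def MrrModPSpec : Prop :=
  ∀ {K : Type} [Field K] (A : ValuationSubring K) (p : ℕ) [CharP (ResidueField A) p]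
    {S : Type} (γ : A) (n : S → ℤ), residue A γ ≠ 0 →
    (∀ s t : S, residue A γ * (((n s : ℤ) : ResidueField A) - ((n t : ℤ) : ResidueField A)) = 0) →
    ∀ s t : S, (p : ℤ) ∣ n s - n t

/-- **`V₁`-only regularity from the `V₁ ∩ V₂`-form** (the form of `TtgModel.val₁` / `ttru_loc`) and a
SEPARATING FUNCTION `e` : `e ∈ V₁ ∩ V₂`, regular at the places centred at `Q`, `red₁ e` a unit at
`Q`, and every function is pushed into `V₂` by a power of `e` (`e ∈ 𝔪_{V₂}`, rank one). -/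
def MrrRegOfValSpec : Prop :=
  ∀ {K : Type} [Field K] {k : Type} [Field k] {F : Type} [Field F] [Algebra K F]
    {F₁ : Type} [Field F₁] [Algebra k F₁]
    (V₁ V₂ : ValuationSubring F) (red₁ : V₁ →+* F₁)
    (Q : Place k F₁) (cen : Set (Place K F)),
    (∀ (f : F) (h₁ : f ∈ V₁), f ∈ V₂ → (∀ R ∈ cen, f ∈ R.toValuationSubring) →
      red₁ ⟨f, h₁⟩ ∈ Q.toValuationSubring) →
    ∀ (e : F) (he₁ : e ∈ V₁), e ∈ V₂ → (∀ R ∈ cen, e ∈ R.toValuationSubring) →
    red₁ ⟨e, he₁⟩ ∉ Q.toValuationSubring.nonunits →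
    (∀ f : F, ∃ m : ℕ, e ^ m * f ∈ V₂) →
    ∀ (f : F) (hf : f ∈ V₁), (∀ R ∈ cen, f ∈ R.toValuationSubring) →
      red₁ ⟨f, hf⟩ ∈ Q.toValuationSubring

end Fermat.Agent.MR
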