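import Mathlib
import Fermat.Agent.MR.Rigid.Spec

/-!
# PROGRAM MR (S44), block `mrr` : RIGIDITY.  Basic algebra

Owner: helper12.  Namespace `Fermat.Agent.MR`, prefix `mrr` / `Mrr`.

* `mrrRed V red` : the reduction `V → Fk` extended by `0` to all of `F` (no dependent proofs);
* `MrrI V p m x` : `x ∈ p^m V`;
* congruence calculus for one-units `x ≡ 1 mod p^m V`;
* `mrr_one_add_zpow` : `(1 + x)^n = 1 + n x + x² c`, `c ∈ A`, for `x ∈ 𝔪_A`, `n : ℤ`.
-/

set_option autoImplicit false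
set_option linter.unusedSectionVars false
set_option linter.unusedVariables false

noncomputable section

namespace Fermat.Agent.MR

open AlgebraicCurve IsLocalRing Fermat.Agent.G Fermat.Agent.TT

section Red

variable {F Fk : Type*} [Field F] [Field Fk] (V : ValuationSubring F) (red : V →+* Fk)

open Classical in
/-- the reduction, extended by zero. -/
def mrrRed (f : F) : Fk := if h : f ∈ V then red ⟨f, h⟩ else 0

theorem mrrRed_of_mem {f : F} (h : f ∈ V) : mrrRed V red f = red ⟨f, h⟩ := dif_pos h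

theorem mrrRed_add {f g : F} (hf : f ∈ V) (hg : g ∈ V) :
    mrrRed V red (f + g) = mrrRed V red f + mrrRed V red g := by
  rw [mrrRed_of_mem V red hf, mrrRed_of_mem V red hg, mrrRed_of_mem V red (V.add_mem _ _ hf hg),
    ← map_add]
  rfl

theorem mrrRed_mul {f g : F} (hf : f ∈ V) (hg : g ∈ V) :
    mrrRed V red (f * g) = mrrRed V red f * mrrRed V red g := by
  rw [mrrRed_of_mem V red hf, mrrRed_of_mem V red hg, mrrRed_of_mem V red (V.mul_mem _ _ hf hg),
    ← map_mul]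
  rfl

theorem mrrRed_neg {f : F} (hf : f ∈ V) : mrrRed V red (-f) = -mrrRed V red f := by
  rw [mrrRed_of_mem V red hf, mrrRed_of_mem V red (V.neg_mem _ hf), ← map_neg]
  rfl

theorem mrrRed_sub {f g : F} (hf : f ∈ V) (hg : g ∈ V) :
    mrrRed V red (f - g) = mrrRed V red f - mrrRed V red g := by
  rw [sub_eq_add_neg, mrrRed_add V red hf (V.neg_mem _ hg), mrrRed_neg V red hg, sub_eq_add_neg]

theorem mrrRed_one : mrrRed V red 1 = 1 := by
  rw [mrrRed_of_mem V red V.one_mem]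
  exact map_one red

theorem mrrRed_zero : mrrRed V red 0 = 0 := by
  rw [mrrRed_of_mem V red V.zero_mem]
  exact map_zero red

theorem mrrRed_eq_zero_iff (hker : ∀ x : V, red x = 0 ↔ (x : F) ∈ V.nonunits) {f : F}
    (hf : f ∈ V) : mrrRed V red f = 0 ↔ f ∈ V.nonunits := by
  rw [mrrRed_of_mem V red hf]
  exact hker ⟨f, hf⟩

end Red

section Ideal

variable {F : Type*} [Field F] (V : ValuationSubring F) (p : F)

/-- `x ∈ p^m V`. -/
def MrrI (m : ℕ) (x : F) : Prop := ∃ z ∈ V, x = p ^ m * z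

variable {V p}

theorem mrr_mul_mem_nonunits {a b : F} (ha : a ∈ V) (hb : b ∈ V.nonunits) :
    a * b ∈ V.nonunits := by
  rw [ValuationSubring.mem_nonunits_iff] at hb ⊢
  rw [map_mul]
  have h1 : V.valuation a ≤ 1 := (V.valuation_le_one_iff _).2 ha
  calc V.valuation a * V.valuation b ≤ 1 * V.valuation b := mul_le_mul_left h1 _
    _ = V.valuation b := one_mul _
    _ < 1 := hb

theorem mrr_one_not_mem_nonunits : (1 : F) ∉ V.nonunits := by
  rw [ValuationSubring.mem_nonunits_iff, map_one]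
  exact lt_irrefl _

theorem mrrI_zero (m : ℕ) : MrrI V p m 0 := ⟨0, V.zero_mem, by rw [mul_zero]⟩

theorem mrrI_add {m : ℕ} {x y : F} (hx : MrrI V p m x) (hy : MrrI V p m y) :
    MrrI V p m (x + y) := by
  obtain ⟨a, ha, rfl⟩ := hx
  obtain ⟨b, hb, rfl⟩ := hy
  exact ⟨a + b, V.add_mem _ _ ha hb, by ring⟩

theorem mrrI_neg {m : ℕ} {x : F} (hx : MrrI V p m x) : MrrI V p m (-x) := by
  obtain ⟨a, ha, rfl⟩ := hx
  exact ⟨-a, V.neg_mem _ ha, by ring⟩

theorem mrrI_sub {m : ℕ} {x y : F} (hx : MrrI V p m x) (hy : MrrI V p m y) :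
    MrrI V p m (x - y) := by
  rw [sub_eq_add_neg]
  exact mrrI_add hx (mrrI_neg hy)

theorem mrrI_mul_right {m : ℕ} {x y : F} (hx : MrrI V p m x) (hy : y ∈ V) :
    MrrI V p m (x * y) := by
  obtain ⟨a, ha, rfl⟩ := hx
  exact ⟨a * y, V.mul_mem _ _ ha hy, by ring⟩

theorem mrrI_mul_left {m : ℕ} {x y : F} (hy : y ∈ V) (hx : MrrI V p m x) :
    MrrI V p m (y * x) := by
  rw [mul_comm]
  exact mrrI_mul_right hx hy

theorem mrrI_mul {m n : ℕ} {x y : F} (hx : MrrI V p m x) (hy : MrrI V p n y) :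
    MrrI V p (m + n) (x * y) := by
  obtain ⟨a, ha, rfl⟩ := hx
  obtain ⟨b, hb, rfl⟩ := hy
  exact ⟨a * b, V.mul_mem _ _ ha hb, by ring⟩

theorem mrrI_mono (hp : p ∈ V) {m n : ℕ} (hmn : m ≤ n) {x : F} (hx : MrrI V p n x) :
    MrrI V p m x := by
  obtain ⟨a, ha, rfl⟩ := hx
  obtain ⟨d, rfl⟩ := Nat.exists_eq_add_of_le hmn
  exact ⟨p ^ d * a, V.mul_mem _ _ (pow_mem hp d) ha, by ring⟩

theorem mrrI_mem (hp : p ∈ V) {m : ℕ} {x : F} (hx : MrrI V p m x) : x ∈ V := by
  obtain ⟨a, ha, rfl⟩ := hx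
  exact V.mul_mem _ _ (pow_mem hp m) ha

theorem mrrI_of_mem {x : F} (hx : x ∈ V) : MrrI V p 0 x := ⟨x, hx, by rw [pow_zero, one_mul]⟩

theorem mrrI_pow_mul (m : ℕ) {z : F} (hz : z ∈ V) : MrrI V p m (p ^ m * z) := ⟨z, hz, rfl⟩

/-- elements of `p^m V`, `m ≥ 1`, are nonunits when `p` is. -/
theorem mrrI_nonunits (hp : p ∈ V.nonunits) {m : ℕ} (hm : 1 ≤ m) {x : F} (hx : MrrI V p m x) :
    x ∈ V.nonunits := by
  obtain ⟨a, ha, rfl⟩ := hx
  obtain ⟨d, rfl⟩ := Nat.exists_eq_add_of_le hm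
  have hpV : p ∈ V := V.nonunits_subset hp
  have h1 : p ^ (1 + d) * a = (p ^ d * a) * p := by ring
  rw [h1]
  exact mrr_mul_mem_nonunits (V.mul_mem _ _ (pow_mem hpV d) ha) hp

/-- a one-unit is a unit. -/
theorem mrr_isU_of_one (hp : p ∈ V.nonunits) {m : ℕ} (hm : 1 ≤ m) {x : F}
    (hx : MrrI V p m (x - 1)) : TtalIsU V x :=
  ttal_isU_of_one (mrrI_nonunits hp hm hx)

/-- product of one-units. -/
theorem mrr_one_mul (hp : p ∈ V) {m : ℕ} {x y : F} (hx : MrrI V p m (x - 1))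
    (hy : MrrI V p m (y - 1)) : MrrI V p m (x * y - 1) := by
  have hyV : y ∈ V := by
    have := V.add_mem _ _ (mrrI_mem hp hy) V.one_mem
    rwa [sub_add_cancel] at this
  have h : x * y - 1 = (x - 1) * y + (y - 1) := by ring
  rw [h]
  exact mrrI_add (mrrI_mul_right hx hyV) hy

/-- inverse of a one-unit. -/
theorem mrr_one_inv (hp : p ∈ V.nonunits) {m : ℕ} (hm : 1 ≤ m) {x : F}
    (hx : MrrI V p m (x - 1)) : MrrI V p m (x⁻¹ - 1) := by
  have hU := mrr_isU_of_one hp hm hx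
  have hx0 : x ≠ 0 := by
    rintro rfl
    have h1 : (0 : F) - 1 ∈ V.nonunits := mrrI_nonunits hp hm hx
    have h2 : (1 : F) ∈ V.nonunits := by
      have := V.nonunits.neg_mem h1
      simpa using this
    exact mrr_one_not_mem_nonunits h2
  have h : x⁻¹ - 1 = -(x - 1) * x⁻¹ := by
    field_simp
    ring
  rw [h]
  exact mrrI_mul_right (mrrI_neg hx) hU.2

/-- natural powers of one-units. -/
theorem mrr_one_pow (hp : p ∈ V) {m : ℕ} {x : F} (hx : MrrI V p m (x - 1)) (n : ℕ) :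
    MrrI V p m (x ^ n - 1) := by
  induction n with
  | zero => rw [pow_zero, sub_self]; exact mrrI_zero m
  | succ n ih => rw [pow_succ]; exact mrr_one_mul hp ih hx

end Ideal

section Zpow

variable {K : Type*} [Field K] (A : ValuationSubring K)

/-- `(1 + x)^n = 1 + n x + x² c` with `c ∈ A`, for `x ∈ 𝔪_A` and `n : ℤ`. -/
theorem mrr_one_add_zpow {x : K} (hx : x ∈ A.nonunits) (n : ℤ) :
    ∃ c ∈ A, (1 + x) ^ n = 1 + (n : K) * x + x ^ 2 * c := by
  have hxA : x ∈ A := A.nonunits_subset hx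
  have hu : (1 + x)⁻¹ ∈ A := by
    have : TtalIsU A (1 + x) := ttal_isU_of_one (by simpa using hx)
    exact this.2
  have h1x : (1 + x) ≠ 0 := by
    intro h
    have : x = -1 := by linear_combination h
    rw [this] at hx
    have := A.nonunits.neg_mem hx
    rw [neg_neg] at this
    exact mrr_one_not_mem_nonunits this
  induction n using Int.induction_on with
  | zero => exact ⟨0, A.zero_mem, by simp⟩
  | succ n ih =>
    obtain ⟨c, hc, h⟩ := ih
    refine ⟨(n : K) + c + x * c, ?_, ?_⟩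
    · exact A.add_mem _ _ (A.add_mem _ _ (natCast_mem A n) hc)
        (A.mul_mem _ _ hxA hc)
    · rw [zpow_add_one₀ h1x, h]
      push_cast
      ring
  | pred n ih =>
    obtain ⟨c, hc, h⟩ := ih
    refine ⟨(c + (n : K) + 1) * (1 + x)⁻¹, ?_, ?_⟩
    · exact A.mul_mem _ _ (A.add_mem _ _ (A.add_mem _ _ hc
        (natCast_mem A n)) A.one_mem) hu
    · rw [zpow_sub_one₀ h1x, h]
      push_cast
      field_simp
      ring

end Zpow

end Fermat.Agent.MR
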