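import Mathlib
import Fermat.Agent.MR.Rigid.Basic

/-!
# PROGRAM MR (S44), block `mrr` : RIGIDITY.  The local expansions of `mrrH σ q`

Owner: helper12.  Namespace `Fermat.Agent.MR`, prefix `mrr` / `Mrr`.

`V` a valuation subring of `F`, `σ` a semilinear automorphism, `FL` a `σ`-stable subfield, `p ∈ FL`
a nonzero nonunit of `V`, and (MOVE) `σ f - f ∈ p² V` for `f ∈ FL ∩ V`.

* `mrr_H_unit` : `mrrH σ q ≡ 1 mod p³ V` for `q ∈ FL` a unit of `V`;
* `mrr_H_mul`, `mrr_H_zpow` : multiplicativity of `mrrH σ`;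
* `mrr_H_const` : `mrrH σ` on a constant;
* `mrr_H_node` : `mrrH σ q ≡ 1 + n γ ϖ² mod ϖ³ V` when `ϖ^(-n) q` is a unit of `V` (under (γ)).
-/

set_option autoImplicit false
set_option linter.unusedSectionVars false
set_option linter.unusedVariables false

noncomputable section

namespace Fermat.Agent.MR

open AlgebraicCurve IsLocalRing Fermat.Agent.G Fermat.Agent.TT

section Local

variable {K : Type*} [Field K] {F : Type*} [Field F] [Algebra K F]

theorem mrr_H_mul (σ : SemilinearAut K F) (x y : F) :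
    mrrH σ (x * y) = mrrH σ x * mrrH σ y := by
  unfold mrrH
  simp only [smul_mul']
  rw [mul_pow, ← mul_div_mul_comm]
  congr 1
  ring

theorem mrr_H_one (σ : SemilinearAut K F) : mrrH σ (1 : F) = 1 := by
  unfold mrrH
  simp

theorem mrr_H_inv (σ : SemilinearAut K F) (x : F) : mrrH σ x⁻¹ = (mrrH σ x)⁻¹ := by
  unfold mrrH
  simp only [SemilinearAut.smul_def, map_inv₀]
  rw [inv_pow, ← mul_inv, inv_div_inv, inv_div]

theorem mrr_H_pow (σ : SemilinearAut K F) (x : F) (n : ℕ) : mrrH σ (x ^ n) = (mrrH σ x) ^ n := by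
  induction n with
  | zero => simp [mrr_H_one]
  | succ n ih => rw [pow_succ, mrr_H_mul, ih, pow_succ]

theorem mrr_H_zpow (σ : SemilinearAut K F) (x : F) (n : ℤ) :
    mrrH σ (x ^ n) = (mrrH σ x) ^ n := by
  cases n with
  | ofNat n => simp [mrr_H_pow]
  | negSucc n => simp only [zpow_negSucc]; rw [mrr_H_inv, mrr_H_pow]

theorem mrr_H_const (σ : SemilinearAut K F) (a : K) :
    mrrH σ (algebraMap K F a)
      = algebraMap K F (SemilinearAut.baseAut σ (SemilinearAut.baseAut σ a) * a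
          / (SemilinearAut.baseAut σ a) ^ 2) := by
  unfold mrrH
  rw [SemilinearAut.smul_algebraMap, SemilinearAut.smul_algebraMap, map_div₀, map_mul, map_pow]

theorem mrr_H_ne_zero (σ : SemilinearAut K F) {q : F} (hq : q ≠ 0) : mrrH σ q ≠ 0 := by
  unfold mrrH
  have h1 : σ • q ≠ 0 := by
    rw [SemilinearAut.smul_def]
    exact (map_ne_zero_iff _ (SemilinearAut.toRingAut σ).injective).2 hq
  have h2 : σ • σ • q ≠ 0 := by
    rw [SemilinearAut.smul_def]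
    exact (map_ne_zero_iff _ (SemilinearAut.toRingAut σ).injective).2 h1
  exact div_ne_zero (mul_ne_zero h2 hq) (pow_ne_zero 2 h1)

variable (V : ValuationSubring F) (σ : SemilinearAut K F) (FL : Subfield F) (p : F)

/-- **(A1)** : `mrrH σ q ≡ 1 mod p³ V` for an `L`-rational unit `q` of `V`. -/
theorem mrr_H_unit (hσ : ∀ f ∈ FL, σ • f ∈ FL) (hpFL : p ∈ FL) (hp0 : p ≠ 0)
    (hp : p ∈ V.nonunits)
    (hmove : ∀ f ∈ FL, f ∈ V → ∃ y ∈ V, σ • f - f = p ^ 2 * y)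
    {q : F} (hq0 : q ≠ 0) (hqFL : q ∈ FL) (hq : TtalIsU V q) : MrrI V p 3 (mrrH σ q - 1) := by
  have hpV : p ∈ V := V.nonunits_subset hp
  obtain ⟨y, hy, hqy⟩ := hmove q hqFL hq.1
  obtain ⟨y', hy', hpy'⟩ := hmove p hpFL hpV
  have hyFL : y ∈ FL := by
    have h1 : σ • q - q ∈ FL := FL.sub_mem (hσ q hqFL) hqFL
    have h2 : y = (σ • q - q) * (p ^ 2)⁻¹ := by
      rw [hqy]; field_simp
    rw [h2]
    exact FL.mul_mem h1 (FL.inv_mem (FL.pow_mem hpFL 2))
  obtain ⟨y'', hy'', hyy''⟩ := hmove y hyFL hy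
  -- the three expansions
  have e1 : σ • q = q + p ^ 2 * y := by rw [← hqy]; ring
  have e2 : σ • p = p * (1 + p * y') := by
    have : σ • p = p + p ^ 2 * y' := by rw [← hpy']; ring
    rw [this]; ring
  have e3 : σ • y = y + p ^ 2 * y'' := by rw [← hyy'']; ring
  have e4 : σ • σ • q = q + 2 * (p ^ 2 * y)
      + p ^ 3 * ((2 * y' + p * y' ^ 2) * (y + p ^ 2 * y'') + p * y'') := by
    rw [e1, smul_add, smul_mul', smul_pow', e1, e2, e3]
    ring
  -- `σ q` is a unit of `V`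
  have hU : TtalIsU V (σ • q) := by
    have h1 : (1 + p ^ 2 * y * q⁻¹) - 1 ∈ V.nonunits := by
      have : (1 + p ^ 2 * y * q⁻¹) - 1 = (p * y * q⁻¹) * p := by ring
      rw [this]
      exact mrr_mul_mem_nonunits (V.mul_mem _ _ (V.mul_mem _ _ hpV hy) hq.2) hp
    have h2 := ttal_isU_mul hq (ttal_isU_of_one h1)
    have h3 : q * (1 + p ^ 2 * y * q⁻¹) = σ • q := by
      rw [e1]; field_simp
    rwa [h3] at h2
  have hσq0 : σ • q ≠ 0 := by
    rw [SemilinearAut.smul_def]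
    exact (map_ne_zero_iff _ (SemilinearAut.toRingAut σ).injective).2 hq0
  set b : F := (2 * y' + p * y' ^ 2) * (y + p ^ 2 * y'') + p * y'' with hb
  have hbV : b ∈ V := by
    refine V.add_mem _ _ (V.mul_mem _ _ (V.add_mem _ _ (V.mul_mem _ _ ?_ hy')
      (V.mul_mem _ _ hpV (pow_mem hy' 2))) (V.add_mem _ _ hy
        (V.mul_mem _ _ (pow_mem hpV 2) hy''))) (V.mul_mem _ _ hpV hy'')
    exact (natCast_mem V 2 : ((2 : ℕ) : F) ∈ V)
  have key : mrrH σ q - 1 = p ^ 3 * ((b * q - p * y ^ 2) * ((σ • q)⁻¹) ^ 2) := by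
    unfold mrrH
    rw [e4]
    field_simp
    rw [e1]
    ring
  rw [key]
  refine mrrI_pow_mul 3 (V.mul_mem _ _ (sub_mem (V.mul_mem _ _ hbV hq.1)
    (V.mul_mem _ _ hpV (pow_mem hy 2))) (pow_mem hU.2 2))

/-- **(A2)** : under (γ), `mrrH σ q ≡ 1 + n γ ϖ² mod ϖ³ V` when `ϖ^(-n) q` is a unit of `V`. -/
theorem mrr_H_node (A : ValuationSubring K) (hconst : ∀ a : A, algebraMap K F (a : K) ∈ V)
    {ϖ : K} (hσ : ∀ f ∈ FL, σ • f ∈ FL) (hpFL : algebraMap K F ϖ ∈ FL) (hϖ0 : ϖ ≠ 0)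
    (hϖ : ϖ ∈ A.nonunits) (hp : algebraMap K F ϖ ∈ V.nonunits)
    (hmove : ∀ f ∈ FL, f ∈ V → ∃ y ∈ V, σ • f - f = algebraMap K F ϖ ^ 2 * y)
    (γ : A) (hγ : MrrGamma A σ ϖ γ) {q : F} (hq0 : q ≠ 0) (hqFL : q ∈ FL) (n : ℤ)
    (hq : TtalIsU V (algebraMap K F ϖ ^ (-n) * q)) :
    MrrI V (algebraMap K F ϖ) 3
      (mrrH σ q - 1 - algebraMap K F ϖ ^ 2 * algebraMap K F ((((n : ℤ) : A) * γ : A) : K)) := by
  set p : F := algebraMap K F ϖ with hpdef
  have hp0 : p ≠ 0 := by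
    rw [hpdef]; exact (map_ne_zero _).2 hϖ0
  have hϖA : ϖ ∈ A := A.nonunits_subset hϖ
  obtain ⟨y, hy, hγy⟩ := hγ
  set s0 : K := SemilinearAut.baseAut σ ϖ with hs0
  have hs00 : s0 ≠ 0 := by
    rw [hs0]; exact (map_ne_zero_iff _ (SemilinearAut.baseAut σ).injective).2 hϖ0
  -- the element `x` with `θ = 1 + x`
  set x : K := (γ : K) * ϖ ^ 2 + y * ϖ ^ 3 with hx
  have hxm : x ∈ A.nonunits := by
    have : x = ((γ : K) * ϖ + y * ϖ ^ 2) * ϖ := by rw [hx]; ring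
    rw [this]
    exact mrr_mul_mem_nonunits (A.add_mem _ _ (A.mul_mem _ _ γ.2 hϖA)
      (A.mul_mem _ _ hy (pow_mem hϖA 2))) hϖ
  have hθ : SemilinearAut.baseAut σ s0 * ϖ / s0 ^ 2 = 1 + x := by
    rw [hγy, hx]
    field_simp
    ring
  have hHp : mrrH σ p = algebraMap K F (1 + x) := by
    rw [hpdef, mrr_H_const, ← hs0, hθ]
  obtain ⟨c, hc, hpow⟩ := mrr_one_add_zpow A hxm n
  have hpowA : (1 + x) ^ n ∈ A := by
    rw [hpow]
    exact A.add_mem _ _ (A.add_mem _ _ A.one_mem (A.mul_mem _ _ (intCast_mem A n)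
      (A.nonunits_subset hxm))) (A.mul_mem _ _ (pow_mem (A.nonunits_subset hxm) 2) hc)
  -- the unit part
  set u : F := p ^ (-n) * q with hu
  have hu0 : u ≠ 0 := mul_ne_zero (zpow_ne_zero _ hp0) hq0
  have huFL : u ∈ FL := FL.mul_mem (FL.zpow_mem hpFL _) hqFL
  have hqu : q = p ^ n * u := by
    rw [hu, ← mul_assoc, ← zpow_add₀ hp0, add_neg_cancel, zpow_zero, one_mul]
  have hA1 := mrr_H_unit V σ FL p hσ hpFL hp0 hp hmove hu0 huFL hq
  have hHq : mrrH σ q = algebraMap K F ((1 + x) ^ n) * mrrH σ u := by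
    rw [hqu, mrr_H_mul, mrr_H_zpow, hHp, map_zpow₀]
  -- the constant `w`
  set w : K := (n : K) * y + ϖ * ((γ : K) + y * ϖ) ^ 2 * c with hw
  have hwA : w ∈ A :=
    A.add_mem _ _ (A.mul_mem _ _ (intCast_mem A n) hy)
      (A.mul_mem _ _ (A.mul_mem _ _ hϖA (pow_mem (A.add_mem _ _ γ.2 (A.mul_mem _ _ hy hϖA)) 2))
        hc)
  have hcoe : ((((n : ℤ) : A) * γ : A) : K) = (n : K) * (γ : K) := by
    push_cast
    rfl
  have e : mrrH σ q - 1 - p ^ 2 * algebraMap K F ((((n : ℤ) : A) * γ : A) : K)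
      = algebraMap K F ((1 + x) ^ n) * (mrrH σ u - 1) + p ^ 3 * algebraMap K F w := by
    have e1 : algebraMap K F ((1 + x) ^ n) - 1 - p ^ 2 * algebraMap K F ((n : K) * (γ : K))
        = p ^ 3 * algebraMap K F w := by
      rw [hpdef, ← map_pow, ← map_pow, ← map_mul, ← map_mul, ← map_one (algebraMap K F),
        ← map_sub, ← map_sub]
      congr 1
      rw [hpow, hw, hx]
      ring
    rw [hHq, hcoe]
    linear_combination e1
  rw [e]
  exact mrrI_add (mrrI_mul_left (hconst ⟨_, hpowA⟩) hA1) (mrrI_pow_mul 3 (hconst ⟨w, hwA⟩))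

end Local

end Fermat.Agent.MR
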