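import Mathlib
import Fermat.Agent.MR.Rigid.Basic

/-!
# PROGRAM MR (S44), block `mrr` : RIGIDITY.  The STEP lemma

Owner: helper12.  Namespace `Fermat.Agent.MR`, prefix `mrr` / `Mrr`.

* `mrr_step_branch` : the local computation on one branch: `h = 1 + p^j f`,
  `H = 1 + p^j t + p^(j+1) z` ⟹ `w := (h / H - 1) / p^j ∈ V` and `red w = red f - red t`;
* `mrr_step` : **STEP(j)** : `h = 1 + ϖ^j f`, `f ∈ V₁ ∩ V₂`, local functions `H` with `h / H` regular
  at the places centred at the closed point, `H ≡ 1 mod ϖ^(j+1)` on the branches except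
  `H ≡ 1 + ϖ^j t_s` on the second branch at a node ⟹ `red_i f = d_i` constants and
  `d₁ = d₂ - t̄_s` for all nodes `s`.
-/

set_option autoImplicit false
set_option linter.unusedSectionVars false
set_option linter.unusedVariables false

noncomputable section

namespace Fermat.Agent.MR

open AlgebraicCurve IsLocalRing Fermat.Agent.G Fermat.Agent.TT

section Branch

variable {F Fk : Type*} [Field F] [Field Fk] (V : ValuationSubring F) (red : V →+* Fk)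

/-- the reduction of a one-unit is `1`. -/
theorem mrrRed_of_one (hker : ∀ x : V, red x = 0 ↔ (x : F) ∈ V.nonunits) {x : F}
    (hx : x - 1 ∈ V.nonunits) : mrrRed V red x = 1 := by
  have hxV : x ∈ V := by
    have := V.add_mem _ _ (V.nonunits_subset hx) V.one_mem
    rwa [sub_add_cancel] at this
  have h1 : mrrRed V red (x - 1) = 0 :=
    (mrrRed_eq_zero_iff V red hker (V.nonunits_subset hx)).2 hx
  rw [mrrRed_sub V red hxV V.one_mem, mrrRed_one] at h1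
  exact sub_eq_zero.mp h1

/-- **the local computation on one branch.** -/
theorem mrr_step_branch (hker : ∀ x : V, red x = 0 ↔ (x : F) ∈ V.nonunits) {p : F} (hp0 : p ≠ 0)
    (hp : p ∈ V.nonunits) (j : ℕ) {f : F} (hf : f ∈ V) {tc : F} (htc : tc ∈ V)
    (htc0 : p ^ j * tc ∈ V.nonunits) {H : F} (hH : MrrI V p (j + 1) (H - 1 - p ^ j * tc)) :
    ((1 + p ^ j * f) / H - 1) / p ^ j ∈ V ∧
      mrrRed V red (((1 + p ^ j * f) / H - 1) / p ^ j) = mrrRed V red f - mrrRed V red tc := by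
  obtain ⟨z, hz, hHz⟩ := hH
  have hpV : p ∈ V := V.nonunits_subset hp
  have hpz : p * z ∈ V.nonunits := by
    rw [mul_comm]; exact mrr_mul_mem_nonunits hz hp
  have hH1 : H - 1 ∈ V.nonunits := by
    have e : H - 1 = p ^ j * tc + p ^ j * (p * z) := by
      have : H - 1 = (H - 1 - p ^ j * tc) + p ^ j * tc := by ring
      rw [this, hHz]; ring
    rw [e]
    exact V.nonunits.add_mem htc0 (mrr_mul_mem_nonunits (pow_mem hpV j) hpz)
  have hHU : TtalIsU V H := ttal_isU_of_one hH1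
  have hH0 : H ≠ 0 := by
    rintro rfl
    have h2 : (1 : F) ∈ V.nonunits := by
      have := V.nonunits.neg_mem hH1
      simpa using this
    exact mrr_one_not_mem_nonunits h2
  have hpj0 : p ^ j ≠ 0 := pow_ne_zero j hp0
  have hw : ((1 + p ^ j * f) / H - 1) / p ^ j = (f - tc - p * z) * H⁻¹ := by
    have hHe : H = 1 + p ^ j * tc + p ^ (j + 1) * z := by
      have : H = (H - 1 - p ^ j * tc) + 1 + p ^ j * tc := by ring
      rw [this, hHz]; ring
    field_simp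
    rw [hHe]
    ring
  have hnum : f - tc - p * z ∈ V :=
    sub_mem (sub_mem hf htc) (V.nonunits_subset hpz)
  have hwV : (f - tc - p * z) * H⁻¹ ∈ V := V.mul_mem _ _ hnum hHU.2
  refine ⟨hw ▸ hwV, ?_⟩
  rw [hw]
  have h1 : mrrRed V red ((f - tc - p * z) * H⁻¹) * mrrRed V red H
      = mrrRed V red (f - tc - p * z) := by
    rw [← mrrRed_mul V red hwV hHU.1, mul_assoc, inv_mul_cancel₀ hH0, mul_one]
  rw [mrrRed_of_one V red hker hH1, mul_one] at h1
  rw [h1, mrrRed_sub V red (sub_mem hf htc) (V.nonunits_subset hpz),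
    mrrRed_sub V red hf htc, (mrrRed_eq_zero_iff V red hker (V.nonunits_subset hpz)).2 hpz,
    sub_zero]

end Branch

section Step

variable {K : Type*} [Field K] {A : ValuationSubring K} {F : Type*} [Field F] [Algebra K F]
variable {F₁ F₂ : Type*} [Field F₁] [Field F₂] [Algebra (ResidueField A) F₁]
  [Algebra (ResidueField A) F₂]
variable {S : Type*}
variable {V₁ V₂ : ValuationSubring F} {red₁ : V₁ →+* F₁} {red₂ : V₂ →+* F₂}
  {σ : SemilinearAut K F} {FL : Subfield F} {ϖ : K}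
  {ν₁ : S → Place (ResidueField A) F₁} {ν₂ : S → Place (ResidueField A) F₂}
  {cen₁ : Place (ResidueField A) F₁ → Set (Place K F)}
  {cen₂ : Place (ResidueField A) F₂ → Set (Place K F)}
  {cenN : S → Set (Place K F)}

/-- constants of `𝔪_A` lie in `𝔪_{V₁}`. -/
theorem MrrModel.max₁ (M : MrrModel A V₁ V₂ red₁ red₂ σ FL ϖ ν₁ ν₂ cen₁ cen₂ cenN) {a : K}
    (ha : a ∈ A.nonunits) : algebraMap K F a ∈ V₁.nonunits := by
  have haA : a ∈ A := A.nonunits_subset ha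
  have h := M.rc₁ ⟨a, haA⟩ (M.const₁ ⟨a, haA⟩)
  have h0 : residue A ⟨a, haA⟩ = 0 := by
    rw [residue_eq_zero_iff]
    exact ValuationSubring.coe_mem_nonunits_iff.mp ha
  rw [h0, map_zero] at h
  exact (M.ker₁ _).1 h

/-- constants of `𝔪_A` lie in `𝔪_{V₂}`. -/
theorem MrrModel.max₂ (M : MrrModel A V₁ V₂ red₁ red₂ σ FL ϖ ν₁ ν₂ cen₁ cen₂ cenN) {a : K}
    (ha : a ∈ A.nonunits) : algebraMap K F a ∈ V₂.nonunits := by
  have haA : a ∈ A := A.nonunits_subset ha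
  have h := M.rc₂ ⟨a, haA⟩ (M.const₂ ⟨a, haA⟩)
  have h0 : residue A ⟨a, haA⟩ = 0 := by
    rw [residue_eq_zero_iff]
    exact ValuationSubring.coe_mem_nonunits_iff.mp ha
  rw [h0, map_zero] at h
  exact (M.ker₂ _).1 h

theorem MrrModel.p_ne (M : MrrModel A V₁ V₂ red₁ red₂ σ FL ϖ ν₁ ν₂ cen₁ cen₂ cenN) :
    algebraMap K F ϖ ≠ 0 := by
  intro h
  exact M.ϖ_ne ((map_eq_zero _).1 h)

/-- the reduction of an integral constant. -/
theorem MrrModel.red_const₁ (M : MrrModel A V₁ V₂ red₁ red₂ σ FL ϖ ν₁ ν₂ cen₁ cen₂ cenN) (a : A) :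
    mrrRed V₁ red₁ (algebraMap K F (a : K)) = algebraMap (ResidueField A) F₁ (residue A a) := by
  rw [mrrRed_of_mem V₁ red₁ (M.const₁ a)]
  exact M.rc₁ a _

theorem MrrModel.red_const₂ (M : MrrModel A V₁ V₂ red₁ red₂ σ FL ϖ ν₁ ν₂ cen₁ cen₂ cenN) (a : A) :
    mrrRed V₂ red₂ (algebraMap K F (a : K)) = algebraMap (ResidueField A) F₂ (residue A a) := by
  rw [mrrRed_of_mem V₂ red₂ (M.const₂ a)]
  exact M.rc₂ a _

/-- regularity of `w = (g - 1) / p^j` at a place where `g` is regular. -/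
theorem mrr_step_reg (R : Place K F) (ϖ : K) (j : ℕ) {g : F} (hg : g ∈ R.toValuationSubring) :
    (g - 1) / (algebraMap K F ϖ) ^ j ∈ R.toValuationSubring := by
  rw [div_eq_mul_inv, ← map_pow, ← map_inv₀]
  exact R.toValuationSubring.mul_mem _ _
    (sub_mem hg (one_mem _)) (R.algebraMap_mem' _)

/-- **STEP(j).** -/
theorem mrr_step (M : MrrModel A V₁ V₂ red₁ red₂ σ FL ϖ ν₁ ν₂ cen₁ cen₂ cenN) (j : ℕ) {f : F}
    (hf₁ : f ∈ V₁) (hf₂ : f ∈ V₂) (t : S → A)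
    (ht : ∀ s, (ϖ ^ j * (t s : K)) ∈ A.nonunits)
    (H₁ : ∀ Q : Place (ResidueField A) F₁, (∀ s, Q ≠ ν₁ s) → ∃ H : F,
      MrrI V₁ (algebraMap K F ϖ) (j + 1) (H - 1) ∧
      ∀ R ∈ cen₁ Q, (1 + algebraMap K F ϖ ^ j * f) / H ∈ R.toValuationSubring)
    (H₂ : ∀ Q : Place (ResidueField A) F₂, (∀ s, Q ≠ ν₂ s) → ∃ H : F,
      MrrI V₂ (algebraMap K F ϖ) (j + 1) (H - 1) ∧
      ∀ R ∈ cen₂ Q, (1 + algebraMap K F ϖ ^ j * f) / H ∈ R.toValuationSubring)
    (HN : ∀ s : S, ∃ H : F, MrrI V₁ (algebraMap K F ϖ) (j + 1) (H - 1) ∧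
      MrrI V₂ (algebraMap K F ϖ) (j + 1)
        (H - 1 - algebraMap K F ϖ ^ j * algebraMap K F (t s : K)) ∧
      ∀ R ∈ cenN s, (1 + algebraMap K F ϖ ^ j * f) / H ∈ R.toValuationSubring) :
    ∃ d₁ d₂ : ResidueField A,
      mrrRed V₁ red₁ f = algebraMap (ResidueField A) F₁ d₁ ∧
      mrrRed V₂ red₂ f = algebraMap (ResidueField A) F₂ d₂ ∧
      ∀ s, d₁ = d₂ - residue A (t s) := by
  classical
  set p : F := algebraMap K F ϖ with hp
  have hp0 : p ≠ 0 := M.p_ne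
  have hp₁ : p ∈ V₁.nonunits := M.max₁ M.ϖ_mem
  have hp₂ : p ∈ V₂.nonunits := M.max₂ M.ϖ_mem
  have hz₁ : p ^ j * (0 : F) ∈ V₁.nonunits := by rw [mul_zero]; exact V₁.nonunits.zero_mem
  have hz₂ : p ^ j * (0 : F) ∈ V₂.nonunits := by rw [mul_zero]; exact V₂.nonunits.zero_mem
  -- the node computation
  have hnode : ∀ s, ∃ c : ResidueField A, GrdVal (ν₁ s) (mrrRed V₁ red₁ f) c ∧
      GrdVal (ν₂ s) (mrrRed V₂ red₂ f - algebraMap (ResidueField A) F₂ (residue A (t s))) c := by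
    intro s
    obtain ⟨H, hH₁, hH₂, hreg⟩ := HN s
    have hH₁' : MrrI V₁ p (j + 1) (H - 1 - p ^ j * 0) := by rwa [mul_zero, sub_zero]
    obtain ⟨hw₁, hr₁⟩ := mrr_step_branch V₁ red₁ M.ker₁ hp0 hp₁ j hf₁ V₁.zero_mem hz₁ hH₁'
    have htn : p ^ j * algebraMap K F (t s : K) ∈ V₂.nonunits := by
      rw [hp, ← map_pow, ← map_mul]
      exact M.max₂ (ht s)
    obtain ⟨hw₂, hr₂⟩ := mrr_step_branch V₂ red₂ M.ker₂ hp0 hp₂ j hf₂ (M.const₂ (t s)) htn hH₂
    obtain ⟨c, hc₁, hc₂⟩ := M.glue s _ hw₁ hw₂ (fun R hR => mrr_step_reg R ϖ j (hreg R hR))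
    refine ⟨c, ?_, ?_⟩
    · rw [← mrrRed_of_mem V₁ red₁ hw₁, hr₁, mrrRed_zero, sub_zero] at hc₁
      exact hc₁
    · rw [← mrrRed_of_mem V₂ red₂ hw₂, hr₂, M.red_const₂] at hc₂
      exact hc₂
  -- regularity on the first component
  have hreg₁ : ∀ Q : Place (ResidueField A) F₁, mrrRed V₁ red₁ f ∈ Q.toValuationSubring := by
    intro Q
    by_cases hQ : ∃ s, Q = ν₁ s
    · obtain ⟨s, rfl⟩ := hQ
      obtain ⟨c, hc, -⟩ := hnode s
      exact grdg_val_mem _ hc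
    · push Not at hQ
      obtain ⟨H, hH, hreg⟩ := H₁ Q hQ
      have hH' : MrrI V₁ p (j + 1) (H - 1 - p ^ j * 0) := by rwa [mul_zero, sub_zero]
      obtain ⟨hw, hr⟩ := mrr_step_branch V₁ red₁ M.ker₁ hp0 hp₁ j hf₁ V₁.zero_mem hz₁ hH'
      have := M.reg₁ Q hQ _ hw (fun R hR => mrr_step_reg R ϖ j (hreg R hR))
      rw [← mrrRed_of_mem V₁ red₁ hw, hr, mrrRed_zero, sub_zero] at this
      exact this
  have hreg₂ : ∀ Q : Place (ResidueField A) F₂, mrrRed V₂ red₂ f ∈ Q.toValuationSubring := by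
    intro Q
    by_cases hQ : ∃ s, Q = ν₂ s
    · obtain ⟨s, rfl⟩ := hQ
      obtain ⟨c, -, hc⟩ := hnode s
      have h1 := grdg_val_mem _ hc
      have h2 := (ν₂ s).toValuationSubring.add_mem _ _ h1
        ((ν₂ s).algebraMap_mem' (residue A (t s)))
      rwa [sub_add_cancel] at h2
    · push Not at hQ
      obtain ⟨H, hH, hreg⟩ := H₂ Q hQ
      have hH' : MrrI V₂ p (j + 1) (H - 1 - p ^ j * 0) := by rwa [mul_zero, sub_zero]
      obtain ⟨hw, hr⟩ := mrr_step_branch V₂ red₂ M.ker₂ hp0 hp₂ j hf₂ V₂.zero_mem hz₂ hH'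
      have := M.reg₂ Q hQ _ hw (fun R hR => mrr_step_reg R ϖ j (hreg R hR))
      rw [← mrrRed_of_mem V₂ red₂ hw, hr, mrrRed_zero, sub_zero] at this
      exact this
  obtain ⟨d₁, hd₁⟩ := M.creg₁ _ hreg₁
  obtain ⟨d₂, hd₂⟩ := M.creg₂ _ hreg₂
  refine ⟨d₁, d₂, hd₁, hd₂, fun s => ?_⟩
  obtain ⟨c, hc₁, hc₂⟩ := hnode s
  rw [hd₁] at hc₁
  rw [hd₂, ← map_sub] at hc₂
  have e₁ := grdg_val_unique _ hc₁ (grdg_val_algebraMap (ν₁ s) d₁)
  have e₂ := grdg_val_unique _ hc₂ (grdg_val_algebraMap (ν₂ s) (d₂ - residue A (t s)))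
  rw [← e₁, e₂]

end Step

end Fermat.Agent.MR
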