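import Mathlib
import Fermat.Agent.MR.Rigid.Step
import Fermat.Agent.MR.Rigid.Local

/-!
# PROGRAM MR (S44), block `mrr` : RIGIDITY.  The core theorem

Owner: helper12.  Namespace `Fermat.Agent.MR`, prefix `mrr` / `Mrr`.

* `MrrPkg` : the local package of a function `h` : at every closed point a function `H` with
  `h / H` regular at the places centred there and `H ≡ 1 mod ϖ³` on the branches, except
  `H ≡ 1 + ϖ² t_s` on the second branch at the node `s`;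
* `mrr_core_pkg` : a nonzero `L`-rational `h` with a local package forces `t̄_s` to be independent
  of `s`;
* `mrr_core` : `MrrCoreSpec` (universe polymorphic form).
-/

set_option autoImplicit false
set_option linter.unusedSectionVars false
set_option linter.unusedVariables false

noncomputable section

namespace Fermat.Agent.MR

open AlgebraicCurve IsLocalRing Fermat.Agent.G Fermat.Agent.TT

section Core

variable {K : Type*} [Field K] {A : ValuationSubring K} {F : Type*} [Field F] [Algebra K F]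
variable {F₁ F₂ : Type*} [Field F₁] [Field F₂] [Algebra (ResidueField A) F₁]
  [Algebra (ResidueField A) F₂]
variable {S : Type*}
variable {V₁ V₂ : ValuationSubring F} {red₁ : V₁ →+* F₁} {red₂ : V₂ →+* F₂}
  {σ : SemilinearAut K F} {FL : Subfield F} {ϖ : K}
  {ν₁ : S → Place (ResidueField A) F₁} {ν₂ : S → Place (ResidueField A) F₂}
  {cen₁ : Place (ResidueField A) F₁ → Set (Place K F)}
  {cen₂ : Place (ResidueField A) F₂ → Set (Place K F)}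
  {cenN : S → Set (Place K F)}

/-- **the local package** of a function `h`. -/
def MrrPkg (A : ValuationSubring K) (V₁ V₂ : ValuationSubring F) (ϖ : K)
    {F₁ F₂ : Type*} [Field F₁] [Field F₂] [Algebra (ResidueField A) F₁]
    [Algebra (ResidueField A) F₂]
    (ν₁ : S → Place (ResidueField A) F₁) (ν₂ : S → Place (ResidueField A) F₂)
    (cen₁ : Place (ResidueField A) F₁ → Set (Place K F))
    (cen₂ : Place (ResidueField A) F₂ → Set (Place K F))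
    (cenN : S → Set (Place K F)) (tN : S → A) (h : F) : Prop :=
  (∀ Q : Place (ResidueField A) F₁, (∀ s, Q ≠ ν₁ s) → ∃ H : F,
      MrrI V₁ (algebraMap K F ϖ) 3 (H - 1) ∧ ∀ R ∈ cen₁ Q, h / H ∈ R.toValuationSubring) ∧
  (∀ Q : Place (ResidueField A) F₂, (∀ s, Q ≠ ν₂ s) → ∃ H : F,
      MrrI V₂ (algebraMap K F ϖ) 3 (H - 1) ∧ ∀ R ∈ cen₂ Q, h / H ∈ R.toValuationSubring) ∧
  (∀ s : S, ∃ H : F, MrrI V₁ (algebraMap K F ϖ) 3 (H - 1) ∧
      MrrI V₂ (algebraMap K F ϖ) 3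
        (H - 1 - algebraMap K F ϖ ^ 2 * algebraMap K F (tN s : K)) ∧
      ∀ R ∈ cenN s, h / H ∈ R.toValuationSubring)

/-- the package is stable under multiplication by constants. -/
theorem MrrPkg.const {tN : S → A} {h : F}
    (P : MrrPkg A V₁ V₂ ϖ ν₁ ν₂ cen₁ cen₂ cenN tN h) (c : K) :
    MrrPkg A V₁ V₂ ϖ ν₁ ν₂ cen₁ cen₂ cenN tN (algebraMap K F c * h) := by
  obtain ⟨P₁, P₂, PN⟩ := P
  refine ⟨fun Q hQ => ?_, fun Q hQ => ?_, fun s => ?_⟩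
  · obtain ⟨H, h1, h2⟩ := P₁ Q hQ
    refine ⟨H, h1, fun R hR => ?_⟩
    rw [mul_div_assoc]
    exact R.toValuationSubring.mul_mem _ _ (R.algebraMap_mem' c) (h2 R hR)
  · obtain ⟨H, h1, h2⟩ := P₂ Q hQ
    refine ⟨H, h1, fun R hR => ?_⟩
    rw [mul_div_assoc]
    exact R.toValuationSubring.mul_mem _ _ (R.algebraMap_mem' c) (h2 R hR)
  · obtain ⟨H, h1, h1', h2⟩ := PN s
    refine ⟨H, h1, h1', fun R hR => ?_⟩
    rw [mul_div_assoc]
    exact R.toValuationSubring.mul_mem _ _ (R.algebraMap_mem' c) (h2 R hR)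

/-- STEP(j), `j ≤ 1`, from the package. -/
theorem mrr_step_low (M : MrrModel A V₁ V₂ red₁ red₂ σ FL ϖ ν₁ ν₂ cen₁ cen₂ cenN) {tN : S → A}
    (j : ℕ) (hj : j ≤ 1) {f : F} (hf₁ : f ∈ V₁) (hf₂ : f ∈ V₂)
    (P : MrrPkg A V₁ V₂ ϖ ν₁ ν₂ cen₁ cen₂ cenN tN (1 + algebraMap K F ϖ ^ j * f)) :
    ∃ d : ResidueField A, mrrRed V₁ red₁ f = algebraMap (ResidueField A) F₁ d ∧
      mrrRed V₂ red₂ f = algebraMap (ResidueField A) F₂ d := by
  obtain ⟨P₁, P₂, PN⟩ := P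
  have hp₁ : algebraMap K F ϖ ∈ V₁ := V₁.nonunits_subset (M.max₁ M.ϖ_mem)
  have hp₂ : algebraMap K F ϖ ∈ V₂ := V₂.nonunits_subset (M.max₂ M.ϖ_mem)
  have h3 : j + 1 ≤ 3 := by omega
  have h2 : j + 1 ≤ 2 := by omega
  obtain ⟨d₁, d₂, e₁, e₂, e⟩ := mrr_step M j hf₁ hf₂ (fun _ => (0 : A))
    (fun s => by
      show ϖ ^ j * ((0 : A) : K) ∈ A.nonunits
      rw [ZeroMemClass.coe_zero, mul_zero]; exact A.nonunits.zero_mem)
    (fun Q hQ => by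
      obtain ⟨H, h1, hr⟩ := P₁ Q hQ
      exact ⟨H, mrrI_mono hp₁ h3 h1, hr⟩)
    (fun Q hQ => by
      obtain ⟨H, h1, hr⟩ := P₂ Q hQ
      exact ⟨H, mrrI_mono hp₂ h3 h1, hr⟩)
    (fun s => by
      obtain ⟨H, h1, h1', hr⟩ := PN s
      refine ⟨H, mrrI_mono hp₁ h3 h1, ?_, hr⟩
      show MrrI V₂ (algebraMap K F ϖ) (j + 1)
        (H - 1 - algebraMap K F ϖ ^ j * algebraMap K F ((0 : A) : K))
      rw [ZeroMemClass.coe_zero, map_zero, mul_zero, sub_zero]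
      have e : H - 1 = (H - 1 - algebraMap K F ϖ ^ 2 * algebraMap K F (tN s : K))
          + algebraMap K F ϖ ^ 2 * algebraMap K F (tN s : K) := by ring
      rw [e]
      exact mrrI_add (mrrI_mono hp₂ h3 h1')
        (mrrI_mono hp₂ h2 (mrrI_pow_mul 2 (M.const₂ (tN s)))))
  refine ⟨d₁, e₁, ?_⟩
  rw [e₂]
  obtain ⟨s⟩ := M.nodes
  have := e s
  rw [map_zero, sub_zero] at this
  rw [this]

/-- STEP(2) from the package. -/
theorem mrr_step_two (M : MrrModel A V₁ V₂ red₁ red₂ σ FL ϖ ν₁ ν₂ cen₁ cen₂ cenN) {tN : S → A}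
    {f : F} (hf₁ : f ∈ V₁) (hf₂ : f ∈ V₂)
    (P : MrrPkg A V₁ V₂ ϖ ν₁ ν₂ cen₁ cen₂ cenN tN (1 + algebraMap K F ϖ ^ 2 * f)) :
    ∃ d₁ d₂ : ResidueField A, ∀ s, d₁ = d₂ - residue A (tN s) := by
  obtain ⟨P₁, P₂, PN⟩ := P
  obtain ⟨d₁, d₂, -, -, e⟩ := mrr_step M 2 hf₁ hf₂ tN
    (fun s => by
      have : ϖ ^ 2 * (tN s : K) = (ϖ * (tN s : K)) * ϖ := by ring
      rw [this]
      exact mrr_mul_mem_nonunits (A.mul_mem _ _ (A.nonunits_subset M.ϖ_mem) (tN s).2) M.ϖ_mem)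
    P₁ P₂ PN
  exact ⟨d₁, d₂, e⟩

/-- a nonzero element of `V` outside `𝔪_V` is a unit. -/
theorem mrr_isU_of_not_nonunits {V : ValuationSubring F} {x : F} (hx : x ∈ V)
    (hn : x ∉ V.nonunits) : TtalIsU V x := by
  refine ⟨hx, ?_⟩
  by_contra h
  exact hn ((ValuationSubring.mem_nonunits_iff_or V).2 (Or.inr h))

/-- a unit is not in `𝔪_V`. -/
theorem mrr_not_nonunits_of_isU {V : ValuationSubring F} {x : F} (hx0 : x ≠ 0)
    (hx : TtalIsU V x) : x ∉ V.nonunits := by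
  intro h
  rcases (ValuationSubring.mem_nonunits_iff_or V).1 h with h1 | h1
  · exact hx0 h1
  · exact h1 hx.2

/-- nonnegative integral powers of an element of `V`. -/
theorem mrr_zpow_mem {V : ValuationSubring F} {p : F} (hp : p ∈ V) {m : ℤ} (hm : 0 ≤ m) :
    p ^ m ∈ V := by
  obtain ⟨k, rfl⟩ := Int.eq_ofNat_of_zero_le hm
  rw [zpow_natCast]
  exact pow_mem hp k

/-- injectivity of the constants `k → F_i`. -/
theorem mrr_const_inj {k Fk : Type*} [Field k] [Field Fk] [Algebra k Fk] {a b : k}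
    (h : algebraMap k Fk a = algebraMap k Fk b) : a = b :=
  (algebraMap k Fk).injective h

/-- **ORDER 0** : a function in `V₁ ∩ V₂` with a package has ONE constant reduction. -/
theorem mrr_order_zero (M : MrrModel A V₁ V₂ red₁ red₂ σ FL ϖ ν₁ ν₂ cen₁ cen₂ cenN) {tN : S → A}
    {h : F} (h₁ : h ∈ V₁) (h₂ : h ∈ V₂)
    (P : MrrPkg A V₁ V₂ ϖ ν₁ ν₂ cen₁ cen₂ cenN tN h) :
    ∃ d : ResidueField A, mrrRed V₁ red₁ h = algebraMap (ResidueField A) F₁ d ∧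
      mrrRed V₂ red₂ h = algebraMap (ResidueField A) F₂ d := by
  have e : 1 + algebraMap K F ϖ ^ 0 * (h - 1) = h := by ring
  obtain ⟨d, e₁, e₂⟩ := mrr_step_low M 0 (by omega) (sub_mem h₁ V₁.one_mem)
    (sub_mem h₂ V₂.one_mem) (e.symm ▸ P)
  refine ⟨d + 1, ?_, ?_⟩
  · rw [mrrRed_sub V₁ red₁ h₁ V₁.one_mem, mrrRed_one] at e₁
    rw [map_add, map_one, ← e₁]; ring
  · rw [mrrRed_sub V₂ red₂ h₂ V₂.one_mem, mrrRed_one] at e₂
    rw [map_add, map_one, ← e₂]; ring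

/-- **PEEL** : an `L`-rational function in `V₁ ∩ V₂` with constant reduction `d` on both branches
is an `L`-rational constant plus `ϖ` times an `L`-rational element of `V₁ ∩ V₂`. -/
theorem mrr_peel (M : MrrModel A V₁ V₂ red₁ red₂ σ FL ϖ ν₁ ν₂ cen₁ cen₂ cenN) {f : F}
    (hFL : f ∈ FL) (h₁ : f ∈ V₁) (h₂ : f ∈ V₂) (d : ResidueField A)
    (e₁ : mrrRed V₁ red₁ f = algebraMap (ResidueField A) F₁ d)
    (e₂ : mrrRed V₂ red₂ f = algebraMap (ResidueField A) F₂ d) :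
    ∃ β : A, algebraMap K F (β : K) ∈ FL ∧ residue A β = d ∧ ∃ f' : F, f' ∈ FL ∧ f' ∈ V₁ ∧
      f' ∈ V₂ ∧ f = algebraMap K F (β : K) + algebraMap K F ϖ * f' := by
  obtain ⟨β, hβFL, hβ⟩ := M.res d
  set p : F := algebraMap K F ϖ with hp
  have hp0 : p ≠ 0 := M.p_ne
  have hpFL : p ∈ FL := M.ϖ_FL
  set g : F := f - algebraMap K F (β : K) with hg
  have hgFL : g ∈ FL := FL.sub_mem hFL hβFL
  have hg₁ : g ∈ V₁.nonunits := by
    rw [← mrrRed_eq_zero_iff V₁ red₁ M.ker₁ (sub_mem h₁ (M.const₁ β)),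
      mrrRed_sub V₁ red₁ h₁ (M.const₁ β), e₁, M.red_const₁, hβ, sub_self]
  have hg₂ : g ∈ V₂.nonunits := by
    rw [← mrrRed_eq_zero_iff V₂ red₂ M.ker₂ (sub_mem h₂ (M.const₂ β)),
      mrrRed_sub V₂ red₂ h₂ (M.const₂ β), e₂, M.red_const₂, hβ, sub_self]
  -- division by `p` inside a valuation ring with value group generated by `p`
  have hdiv : ∀ (V : ValuationSubring F), p ∈ V →
      (∀ f ∈ FL, f ≠ 0 → ∃ n : ℤ, TtalIsU V (p ^ n * f)) → g ∈ V.nonunits → p⁻¹ * g ∈ V := by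
    intro V hpV hvg hgV
    rcases eq_or_ne g 0 with h0 | h0
    · rw [h0, mul_zero]; exact V.zero_mem
    obtain ⟨n, hn⟩ := hvg g hgFL h0
    have hn1 : n ≤ -1 := by
      by_contra hcon
      push Not at hcon
      have hn0 : 0 ≤ n := by omega
      -- then `g⁻¹ = p^n * (p^n g)⁻¹ ∈ V`
      have : g⁻¹ = p ^ n * (p ^ n * g)⁻¹ := by
        rw [mul_inv, ← mul_assoc, mul_inv_cancel₀ (zpow_ne_zero _ hp0), one_mul]
      have hginv : g⁻¹ ∈ V := by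
        rw [this]; exact V.mul_mem _ _ (mrr_zpow_mem hpV hn0) hn.2
      rcases (ValuationSubring.mem_nonunits_iff_or V).1 hgV with h1 | h1
      · exact h0 h1
      · exact h1 hginv
    have : p⁻¹ * g = p ^ (-n - 1) * (p ^ n * g) := by
      rw [← mul_assoc, ← zpow_add₀ hp0]
      have : -n - 1 + n = -1 := by ring
      rw [this, zpow_neg_one]
    rw [this]
    exact V.mul_mem _ _ (mrr_zpow_mem hpV (by omega)) hn.1
  refine ⟨β, hβFL, hβ, p⁻¹ * g, FL.mul_mem (FL.inv_mem hpFL) hgFL,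
    hdiv V₁ (V₁.nonunits_subset (M.max₁ M.ϖ_mem)) M.vg₁ hg₁,
    hdiv V₂ (V₂.nonunits_subset (M.max₂ M.ϖ_mem)) M.vg₂ hg₂, ?_⟩
  rw [← mul_assoc, mul_inv_cancel₀ hp0, one_mul, hg]
  ring

/-- the inverse of an element of `A` with nonzero residue lies in `A`. -/
theorem mrr_inv_mem_of_residue_ne {α : A} (h : residue A α ≠ 0) :
    (α : K) ≠ 0 ∧ (α : K)⁻¹ ∈ A := by
  have h1 : α ∉ maximalIdeal A := fun hm => h ((residue_eq_zero_iff _).2 hm)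
  have h2 : (α : K) ∉ A.nonunits := fun hm => h1 (ValuationSubring.coe_mem_nonunits_iff.1 hm)
  have h3 := (ValuationSubring.mem_nonunits_iff_or A).not.1 h2
  push Not at h3
  exact h3

/-- a constant multiple of an `L`-rational function with a package which is a unit of `V₁` and of
`V₂`. -/
theorem mrr_normalise (M : MrrModel A V₁ V₂ red₁ red₂ σ FL ϖ ν₁ ν₂ cen₁ cen₂ cenN) {tN : S → A}
    {h2 : F} (hFL : h2 ∈ FL) (h0 : h2 ≠ 0)
    (P : MrrPkg A V₁ V₂ ϖ ν₁ ν₂ cen₁ cen₂ cenN tN h2) :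
    ∃ c : K, c ≠ 0 ∧ algebraMap K F c ∈ FL ∧ TtalIsU V₁ (algebraMap K F c * h2) ∧
      TtalIsU V₂ (algebraMap K F c * h2) := by
  set p : F := algebraMap K F ϖ with hp
  have hp0 : p ≠ 0 := M.p_ne
  have hpFL : p ∈ FL := M.ϖ_FL
  have hp₁ : p ∈ V₁ := V₁.nonunits_subset (M.max₁ M.ϖ_mem)
  have hp₂ : p ∈ V₂ := V₂.nonunits_subset (M.max₂ M.ϖ_mem)
  obtain ⟨a, ha⟩ := M.vg₁ h2 hFL h0
  obtain ⟨b, hb⟩ := M.vg₂ h2 hFL h0
  rcases le_total a b with hab | hab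
  · refine ⟨ϖ ^ b, zpow_ne_zero _ M.ϖ_ne, ?_, ?_, ?_⟩
    · rw [map_zpow₀]; exact FL.zpow_mem hpFL b
    · rw [map_zpow₀]
      have hmem : p ^ b * h2 ∈ V₁ := by
        have : p ^ b * h2 = p ^ (b - a) * (p ^ a * h2) := by
          rw [← mul_assoc, ← zpow_add₀ hp0]; congr 2; ring
        rw [this]; exact V₁.mul_mem _ _ (mrr_zpow_mem hp₁ (by omega)) ha.1
      have hP := P.const (ϖ ^ b)
      rw [map_zpow₀] at hP
      obtain ⟨d, e₁, e₂⟩ := mrr_order_zero M hmem hb.1 hP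
      have hU0 : p ^ b * h2 ≠ 0 := mul_ne_zero (zpow_ne_zero _ hp0) h0
      have hd : d ≠ 0 := by
        rintro rfl
        rw [map_zero] at e₂
        exact mrr_not_nonunits_of_isU hU0 hb ((mrrRed_eq_zero_iff V₂ red₂ M.ker₂ hb.1).1 e₂)
      refine mrr_isU_of_not_nonunits hmem (fun hn => hd ?_)
      have := (mrrRed_eq_zero_iff V₁ red₁ M.ker₁ hmem).2 hn
      rw [e₁] at this
      exact (map_eq_zero _).1 this
    · rw [map_zpow₀]; exact hb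
  · refine ⟨ϖ ^ a, zpow_ne_zero _ M.ϖ_ne, ?_, ?_, ?_⟩
    · rw [map_zpow₀]; exact FL.zpow_mem hpFL a
    · rw [map_zpow₀]; exact ha
    · rw [map_zpow₀]
      have hmem : p ^ a * h2 ∈ V₂ := by
        have : p ^ a * h2 = p ^ (a - b) * (p ^ b * h2) := by
          rw [← mul_assoc, ← zpow_add₀ hp0]; congr 2; ring
        rw [this]; exact V₂.mul_mem _ _ (mrr_zpow_mem hp₂ (by omega)) hb.1
      have hP := P.const (ϖ ^ a)
      rw [map_zpow₀] at hP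
      obtain ⟨d, e₁, e₂⟩ := mrr_order_zero M ha.1 hmem hP
      have hU0 : p ^ a * h2 ≠ 0 := mul_ne_zero (zpow_ne_zero _ hp0) h0
      have hd : d ≠ 0 := by
        rintro rfl
        rw [map_zero] at e₁
        exact mrr_not_nonunits_of_isU hU0 ha ((mrrRed_eq_zero_iff V₁ red₁ M.ker₁ ha.1).1 e₁)
      refine mrr_isU_of_not_nonunits hmem (fun hn => hd ?_)
      have := (mrrRed_eq_zero_iff V₂ red₂ M.ker₂ hmem).2 hn
      rw [e₂] at this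
      exact (map_eq_zero _).1 this

/-- **THE CORE, PACKAGE FORM** : a nonzero `L`-rational function with a local package forces the
residues `t̄_s` to agree. -/
theorem mrr_core_pkg (M : MrrModel A V₁ V₂ red₁ red₂ σ FL ϖ ν₁ ν₂ cen₁ cen₂ cenN) {tN : S → A}
    {h2 : F} (hFL : h2 ∈ FL) (h0 : h2 ≠ 0)
    (P : MrrPkg A V₁ V₂ ϖ ν₁ ν₂ cen₁ cen₂ cenN tN h2) :
    ∀ s t : S, residue A (tN s) = residue A (tN t) := by
  set p : F := algebraMap K F ϖ with hp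
  have hp0 : p ≠ 0 := M.p_ne
  have hpFL : p ∈ FL := M.ϖ_FL
  obtain ⟨c, hc0, hcFL, hU₁, hU₂⟩ := mrr_normalise M hFL h0 P
  -- order 0
  have hhFL : algebraMap K F c * h2 ∈ FL := FL.mul_mem hcFL hFL
  have hh0 : algebraMap K F c * h2 ≠ 0 := mul_ne_zero ((map_ne_zero _).2 hc0) h0
  obtain ⟨d, e₁, e₂⟩ := mrr_order_zero M hU₁.1 hU₂.1 (P.const c)
  have hd : d ≠ 0 := by
    rintro rfl
    rw [map_zero] at e₁
    exact mrr_not_nonunits_of_isU hh0 hU₁ ((mrrRed_eq_zero_iff V₁ red₁ M.ker₁ hU₁.1).1 e₁)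
  obtain ⟨α, hαFL, hα, f', hf'FL, hf'₁, hf'₂, hf'⟩ := mrr_peel M hhFL hU₁.1 hU₂.1 d e₁ e₂
  obtain ⟨hα0, hαi⟩ := mrr_inv_mem_of_residue_ne (hα.symm ▸ hd : residue A α ≠ 0)
  have hαiFL : algebraMap K F (α : K)⁻¹ ∈ FL := by
    rw [map_inv₀]; exact FL.inv_mem hαFL
  -- order 1
  set f₁ : F := algebraMap K F (α : K)⁻¹ * f' with hf₁
  have hf₁FL : f₁ ∈ FL := FL.mul_mem hαiFL hf'FL
  have hf₁₁ : f₁ ∈ V₁ := V₁.mul_mem _ _ (M.const₁ ⟨_, hαi⟩) hf'₁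
  have hf₁₂ : f₁ ∈ V₂ := V₂.mul_mem _ _ (M.const₂ ⟨_, hαi⟩) hf'₂
  have eh' : algebraMap K F ((α : K)⁻¹ * c) * h2 = 1 + p ^ 1 * f₁ := by
    rw [map_mul, mul_assoc, hf', hf₁, mul_add, ← map_mul, inv_mul_cancel₀ hα0, map_one, pow_one]
    ring
  have P' := P.const ((α : K)⁻¹ * c)
  rw [eh'] at P'
  obtain ⟨d', e₁', e₂'⟩ := mrr_step_low M 1 le_rfl hf₁₁ hf₁₂ P'
  obtain ⟨β, hβFL, hβ, f'', hf''FL, hf''₁, hf''₂, hf''⟩ := mrr_peel M hf₁FL hf₁₁ hf₁₂ d' e₁' e₂'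
  -- the one-unit `1 + β ϖ`
  have hβϖ : (β : K) * ϖ ∈ A.nonunits := mrr_mul_mem_nonunits β.2 M.ϖ_mem
  have hone : TtalIsU A (1 + (β : K) * ϖ) := ttal_isU_of_one (by simpa using hβϖ)
  have hone0 : 1 + (β : K) * ϖ ≠ 0 := by
    intro h
    have : (β : K) * ϖ = -1 := by linear_combination h
    rw [this] at hβϖ
    have := A.nonunits.neg_mem hβϖ
    rw [neg_neg] at this
    exact mrr_one_not_mem_nonunits this
  -- order 2
  set f₂ : F := algebraMap K F (1 + (β : K) * ϖ)⁻¹ * f'' with hf₂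
  have hf₂₁ : f₂ ∈ V₁ := V₁.mul_mem _ _ (M.const₁ ⟨_, hone.2⟩) hf''₁
  have hf₂₂ : f₂ ∈ V₂ := V₂.mul_mem _ _ (M.const₂ ⟨_, hone.2⟩) hf''₂
  have eh'' : algebraMap K F ((1 + (β : K) * ϖ)⁻¹ * ((α : K)⁻¹ * c)) * h2 = 1 + p ^ 2 * f₂ := by
    rw [map_mul (algebraMap K F) (1 + (β : K) * ϖ)⁻¹, mul_assoc, eh', hf'', hf₂, pow_one]
    have h1 : algebraMap K F (1 + (β : K) * ϖ)⁻¹ * (1 + algebraMap K F (β : K) * p) = 1 := by
      rw [hp, ← map_mul, ← map_one (algebraMap K F), ← map_add, ← map_mul,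
        inv_mul_cancel₀ hone0]
    linear_combination h1
  have P'' := P.const ((1 + (β : K) * ϖ)⁻¹ * ((α : K)⁻¹ * c))
  rw [eh''] at P''
  obtain ⟨d₁, d₂, e⟩ := mrr_step_two M hf₂₁ hf₂₂ P''
  intro s t
  have hs := e s
  have ht := e t
  have : residue A (tN s) = d₂ - d₁ := by rw [hs]; ring
  rw [this, ht]; ring

/-- regularity of `h / H` at a place where the two functions have the same order. -/
theorem mrr_reg_of_ord (R : Place K F) {h H : F} (h0 : h ≠ 0) (H0 : H ≠ 0)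
    (e : R.ord h = R.ord H) : h / H ∈ R.toValuationSubring := by
  apply Fermat.Agent.S24.PlaceOrd.mem_of_ord_nonneg
  rw [div_eq_mul_inv, R.ord_mul h0 (inv_ne_zero H0), R.ord_inv, e]
  omega

/-- **(R-ABS), LOCAL-EQUATION FORM** (`MrrCoreSpec`, universe polymorphic). -/
theorem mrr_core (M : MrrModel A V₁ V₂ red₁ red₂ σ FL ϖ ν₁ ν₂ cen₁ cen₂ cenN) (γ : A)
    (hγ : MrrGamma A σ ϖ γ) {h2 : F} (hFL : h2 ∈ FL) (h0 : h2 ≠ 0) (n : S → ℤ)
    (L₁ : ∀ Q : Place (ResidueField A) F₁, (∀ s, Q ≠ ν₁ s) → ∃ q : F, q ≠ 0 ∧ q ∈ FL ∧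
      TtalIsU V₁ q ∧ ∀ R ∈ cen₁ Q, R.ord h2 = R.ord (mrrH σ q))
    (L₂ : ∀ Q : Place (ResidueField A) F₂, (∀ s, Q ≠ ν₂ s) → ∃ q : F, q ≠ 0 ∧ q ∈ FL ∧
      TtalIsU V₂ q ∧ ∀ R ∈ cen₂ Q, R.ord h2 = R.ord (mrrH σ q))
    (LN : ∀ s : S, ∃ q : F, q ≠ 0 ∧ q ∈ FL ∧ TtalIsU V₁ q ∧
      TtalIsU V₂ (algebraMap K F ϖ ^ (-(n s)) * q) ∧
      ∀ R ∈ cenN s, R.ord h2 = R.ord (mrrH σ q)) :
    ∀ s t : S, residue A γ * (((n s : ℤ) : ResidueField A) - ((n t : ℤ) : ResidueField A)) = 0 := by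
  have hp0 : algebraMap K F ϖ ≠ 0 := M.p_ne
  have hp₁ := M.max₁ M.ϖ_mem
  have hp₂ := M.max₂ M.ϖ_mem
  have P : MrrPkg A V₁ V₂ ϖ ν₁ ν₂ cen₁ cen₂ cenN (fun s => ((n s : ℤ) : A) * γ) h2 := by
    refine ⟨fun Q hQ => ?_, fun Q hQ => ?_, fun s => ?_⟩
    · obtain ⟨q, hq0, hqFL, hqU, hord⟩ := L₁ Q hQ
      exact ⟨mrrH σ q, mrr_H_unit V₁ σ FL _ M.σ_FL M.ϖ_FL hp0 hp₁ M.move₁ hq0 hqFL hqU,
        fun R hR => mrr_reg_of_ord R h0 (mrr_H_ne_zero σ hq0) (hord R hR)⟩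
    · obtain ⟨q, hq0, hqFL, hqU, hord⟩ := L₂ Q hQ
      exact ⟨mrrH σ q, mrr_H_unit V₂ σ FL _ M.σ_FL M.ϖ_FL hp0 hp₂ M.move₂ hq0 hqFL hqU,
        fun R hR => mrr_reg_of_ord R h0 (mrr_H_ne_zero σ hq0) (hord R hR)⟩
    · obtain ⟨q, hq0, hqFL, hqU₁, hqU₂, hord⟩ := LN s
      exact ⟨mrrH σ q, mrr_H_unit V₁ σ FL _ M.σ_FL M.ϖ_FL hp0 hp₁ M.move₁ hq0 hqFL hqU₁,
        mrr_H_node V₂ σ FL A M.const₂ M.σ_FL M.ϖ_FL M.ϖ_ne M.ϖ_mem hp₂ M.move₂ γ hγ hq0 hqFL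
          (n s) hqU₂,
        fun R hR => mrr_reg_of_ord R h0 (mrr_H_ne_zero σ hq0) (hord R hR)⟩
  intro s t
  have h := mrr_core_pkg M hFL h0 P s t
  simp only [map_mul, map_intCast] at h
  rw [mul_sub, mul_comm _ ((n s : ℤ) : ResidueField A), mul_comm _ ((n t : ℤ) : ResidueField A), h,
    sub_self]

/-- `MrrCoreSpec` holds. -/
theorem mrr_coreSpec : MrrCoreSpec := by
  intro K _ A F _ _ F₁ F₂ _ _ _ _ S V₁ V₂ red₁ red₂ σ FL ϖ ν₁ ν₂ cen₁ cen₂ cenN M γ hγ h2 hFL h0 n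
    L₁ L₂ LN
  exact mrr_core M γ hγ hFL h0 n L₁ L₂ LN

end Core

end Fermat.Agent.MR
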