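import Mathlib
import Fermat.Agent.MR.Rigid.Core

/-!
# PROGRAM MR (S44), block `mrr` : RIGIDITY.  Divisor form, (γ) from (P1c), mod `p`, regularity

Owner: helper12.  Namespace `Fermat.Agent.MR`, prefix `mrr` / `Mrr`.

* `mrr_divSpec : MrrDivSpec` : (R-ABS) with a divisor `D`, `(σ - 1)² D = div h2`;
* `mrr_gammaSpec : MrrGammaSpec` : (P1c) `σϖ = ϖ (1 + c ϖ + r ϖ²)` ⟹ (γ) with `γ = c²`;
* `mrr_modPSpec : MrrModPSpec` : `γ̄ ≠ 0` ⟹ `n_s ≡ n_t mod p`;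
* `mrr_regOfValSpec : MrrRegOfValSpec` : `V₁`-only regularity from the `V₁ ∩ V₂`-form.
-/

set_option autoImplicit false
set_option linter.unusedSectionVars false
set_option linter.unusedVariables false

noncomputable section

namespace Fermat.Agent.MR

open AlgebraicCurve IsLocalRing Fermat.Agent.G Fermat.Agent.TT

section Div

variable {K : Type*} [Field K] {A : ValuationSubring K} {F : Type*} [Field F] [Algebra K F]
variable {F₁ F₂ : Type*} [Field F₁] [Field F₂] [Algebra (ResidueField A) F₁]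
  [Algebra (ResidueField A) F₂]
variable {S : Type*}
variable {V₁ V₂ : ValuationSubring F} {red₁ : V₁ →+* F₁} {red₂ : V₂ →+* F₂}
  {σ : SemilinearAut K F} {FL : Subfield F} {ϖ : K}
  {ν₁ : S → Place (ResidueField A) F₁} {ν₂ : S → Place (ResidueField A) F₂}
  {cen₁ : Place (ResidueField A) F₁ → Set (Place K F)}
  {cen₂ : Place (ResidueField A) F₂ → Set (Place K F)}
  {cenN : S → Set (Place K F)}

/-- `ord_R (σ f) = ord_{σ⁻¹ R} f`. -/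
theorem mrr_ord_smul (σ : SemilinearAut K F) (R : Place K F) (f : F) :
    R.ord (σ • f) = (σ⁻¹ • R).ord f := by
  have h := SemilinearAut.ord_smul σ (σ⁻¹ • R) f
  rwa [smul_inv_smul] at h

/-- the orders of `mrrH σ q` on a `σ⁻¹`-stable set where `q` is a local equation of `D`. -/
theorem mrr_ord_H (σ : SemilinearAut K F) (D : Divisor K F) (C : Set (Place K F))
    (hC : ∀ R ∈ C, σ⁻¹ • R ∈ C) {q : F} (hq0 : q ≠ 0) (hq : ∀ R ∈ C, R.ord q = D R)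
    (R : Place K F) (hR : R ∈ C) :
    R.ord (mrrH σ q) = ((σ * σ) • D - (2 : ℤ) • (σ • D) + D) R := by
  have h1 : σ • q ≠ 0 := by
    rw [SemilinearAut.smul_def]
    exact (map_ne_zero_iff _ (SemilinearAut.toRingAut σ).injective).2 hq0
  have h2 : σ • σ • q ≠ 0 := by
    rw [SemilinearAut.smul_def]
    exact (map_ne_zero_iff _ (SemilinearAut.toRingAut σ).injective).2 h1
  unfold mrrH
  rw [div_eq_mul_inv, R.ord_mul (mul_ne_zero h2 hq0) (inv_ne_zero (pow_ne_zero 2 h1)),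
    R.ord_mul h2 hq0, R.ord_inv, pow_two, R.ord_mul h1 h1, mrr_ord_smul, mrr_ord_smul,
    mrr_ord_smul]
  rw [Finsupp.add_apply, Finsupp.sub_apply, Finsupp.smul_apply,
    SemilinearAut.divisor_smul_apply, SemilinearAut.divisor_smul_apply, mul_inv_rev, mul_smul,
    hq R hR, hq _ (hC R hR), hq _ (hC _ (hC R hR))]
  simp only [smul_eq_mul]
  ring

/-- **(R-ABS), DIVISOR FORM** (`MrrDivSpec`, universe polymorphic). -/
theorem mrr_div (M : MrrModel A V₁ V₂ red₁ red₂ σ FL ϖ ν₁ ν₂ cen₁ cen₂ cenN)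
    (hc₁ : ∀ Q, ∀ R ∈ cen₁ Q, σ⁻¹ • R ∈ cen₁ Q) (hc₂ : ∀ Q, ∀ R ∈ cen₂ Q, σ⁻¹ • R ∈ cen₂ Q)
    (hcN : ∀ s, ∀ R ∈ cenN s, σ⁻¹ • R ∈ cenN s) (γ : A) (hγ : MrrGamma A σ ϖ γ)
    (D : Divisor K F) {h2 : F} (hFL : h2 ∈ FL) (h0 : h2 ≠ 0)
    (hD : ∀ R : Place K F, R.ord h2 = ((σ * σ) • D - (2 : ℤ) • (σ • D) + D) R) (n : S → ℤ)
    (L₁ : ∀ Q : Place (ResidueField A) F₁, (∀ s, Q ≠ ν₁ s) → ∃ q : F, q ≠ 0 ∧ q ∈ FL ∧
      TtalIsU V₁ q ∧ ∀ R ∈ cen₁ Q, R.ord q = D R)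
    (L₂ : ∀ Q : Place (ResidueField A) F₂, (∀ s, Q ≠ ν₂ s) → ∃ q : F, q ≠ 0 ∧ q ∈ FL ∧
      TtalIsU V₂ q ∧ ∀ R ∈ cen₂ Q, R.ord q = D R)
    (LN : ∀ s : S, ∃ q : F, q ≠ 0 ∧ q ∈ FL ∧ TtalIsU V₁ q ∧
      TtalIsU V₂ (algebraMap K F ϖ ^ (-(n s)) * q) ∧ ∀ R ∈ cenN s, R.ord q = D R) :
    ∀ s t : S, residue A γ * (((n s : ℤ) : ResidueField A) - ((n t : ℤ) : ResidueField A)) = 0 := by
  refine mrr_core M γ hγ hFL h0 n (fun Q hQ => ?_) (fun Q hQ => ?_) (fun s => ?_)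
  · obtain ⟨q, hq0, hqFL, hqU, hq⟩ := L₁ Q hQ
    exact ⟨q, hq0, hqFL, hqU, fun R hR => by
      rw [hD R, mrr_ord_H σ D (cen₁ Q) (hc₁ Q) hq0 hq R hR]⟩
  · obtain ⟨q, hq0, hqFL, hqU, hq⟩ := L₂ Q hQ
    exact ⟨q, hq0, hqFL, hqU, fun R hR => by
      rw [hD R, mrr_ord_H σ D (cen₂ Q) (hc₂ Q) hq0 hq R hR]⟩
  · obtain ⟨q, hq0, hqFL, hqU₁, hqU₂, hq⟩ := LN s
    exact ⟨q, hq0, hqFL, hqU₁, hqU₂, fun R hR => by
      rw [hD R, mrr_ord_H σ D (cenN s) (hcN s) hq0 hq R hR]⟩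

/-- `MrrDivSpec` holds. -/
theorem mrr_divSpec : MrrDivSpec := by
  intro K _ A F _ _ F₁ F₂ _ _ _ _ S V₁ V₂ red₁ red₂ σ FL ϖ ν₁ ν₂ cen₁ cen₂ cenN M hc₁ hc₂ hcN γ hγ
    D h2 hFL h0 hD n L₁ L₂ LN
  exact mrr_div M hc₁ hc₂ hcN γ hγ D hFL h0 hD n L₁ L₂ LN

/-- `σ` moves an integral `L`-rational constant by `ϖ² A`. -/
theorem mrr_move_const (M : MrrModel A V₁ V₂ red₁ red₂ σ FL ϖ ν₁ ν₂ cen₁ cen₂ cenN)
    (hKA : ∀ a : K, algebraMap K F a ∈ V₁ → a ∈ A) (c : A)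
    (hc : algebraMap K F (c : K) ∈ FL) :
    ∃ c' ∈ A, SemilinearAut.baseAut σ (c : K) = (c : K) + ϖ ^ 2 * c' := by
  obtain ⟨y, hy, hcy⟩ := M.move₁ _ hc (M.const₁ c)
  refine ⟨(SemilinearAut.baseAut σ (c : K) - (c : K)) / ϖ ^ 2, hKA _ ?_, ?_⟩
  · have : algebraMap K F ((SemilinearAut.baseAut σ (c : K) - (c : K)) / ϖ ^ 2) = y := by
      rw [map_div₀, map_sub, ← SemilinearAut.smul_algebraMap, hcy, map_pow]
      have := M.p_ne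
      field_simp
    rw [this]; exact hy
  · have := M.ϖ_ne
    field_simp
    ring

/-- **(γ) from (P1c)** (`MrrGammaSpec`, universe polymorphic). -/
theorem mrr_gamma (M : MrrModel A V₁ V₂ red₁ red₂ σ FL ϖ ν₁ ν₂ cen₁ cen₂ cenN)
    (hKA : ∀ a : K, algebraMap K F a ∈ V₁ → a ∈ A) (c r : A)
    (hc : algebraMap K F (c : K) ∈ FL) (hr : algebraMap K F (r : K) ∈ FL)
    (hε : SemilinearAut.baseAut σ ϖ = ϖ * (1 + (c : K) * ϖ + (r : K) * ϖ ^ 2)) :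
    MrrGamma A σ ϖ (c * c) := by
  obtain ⟨c', hc', hcc'⟩ := mrr_move_const M hKA c hc
  obtain ⟨r', hr', hrr'⟩ := mrr_move_const M hKA r hr
  have hϖA : ϖ ∈ A := A.nonunits_subset M.ϖ_mem
  have hϖ0 : ϖ ≠ 0 := M.ϖ_ne
  set ε : K := 1 + (c : K) * ϖ + (r : K) * ϖ ^ 2 with hεdef
  have hεm : ε - 1 ∈ A.nonunits := by
    have : ε - 1 = ((c : K) + (r : K) * ϖ) * ϖ := by rw [hεdef]; ring
    rw [this]
    exact mrr_mul_mem_nonunits (A.add_mem _ _ c.2 (A.mul_mem _ _ r.2 hϖA)) M.ϖ_mem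
  have hεU : TtalIsU A ε := ttal_isU_of_one hεm
  have hε0 : ε ≠ 0 := by
    intro h
    rw [h, zero_sub] at hεm
    have := A.nonunits.neg_mem hεm
    rw [neg_neg] at this
    exact mrr_one_not_mem_nonunits this
  set B : K := (c : K) * r + c' * ε + (r : K) * ((c : K) + r * ϖ) * (ε + 1) + ϖ * r' * ε ^ 2
    with hB
  have hBA : B ∈ A := by
    refine A.add_mem _ _ (A.add_mem _ _ (A.add_mem _ _ (A.mul_mem _ _ c.2 r.2)
      (A.mul_mem _ _ hc' hεU.1)) (A.mul_mem _ _ (A.mul_mem _ _ r.2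
        (A.add_mem _ _ c.2 (A.mul_mem _ _ r.2 hϖA))) (A.add_mem _ _ hεU.1 A.one_mem)))
      (A.mul_mem _ _ (A.mul_mem _ _ hϖA hr') (pow_mem hεU.1 2))
  refine ⟨(B - (c : K) ^ 2 * ((c : K) + r * ϖ)) * ε⁻¹, A.mul_mem _ _ (sub_mem hBA
    (A.mul_mem _ _ (pow_mem c.2 2) (A.add_mem _ _ c.2 (A.mul_mem _ _ r.2 hϖA)))) hεU.2, ?_⟩
  have hσε : SemilinearAut.baseAut σ ε = ε + (c : K) ^ 2 * ϖ ^ 2 + ϖ ^ 3 * B := by
    rw [hεdef, map_add, map_add, map_one, map_mul, map_mul, map_pow, hε, hcc', hrr', ← hεdef, hB]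
    rw [hεdef]
    ring
  rw [hε, map_mul, hε, hσε]
  have hcoe : ((c * c : A) : K) = (c : K) ^ 2 := by
    push_cast; ring
  rw [hcoe]
  field_simp
  ring

/-- `MrrGammaSpec` holds. -/
theorem mrr_gammaSpec : MrrGammaSpec := by
  intro K _ A F _ _ F₁ F₂ _ _ _ _ S V₁ V₂ red₁ red₂ σ FL ϖ ν₁ ν₂ cen₁ cen₂ cenN M hKA c r hc hr hε
  exact mrr_gamma M hKA c r hc hr hε

end Div

/-- `MrrModPSpec` holds. -/
theorem mrr_modPSpec : MrrModPSpec := by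
  intro K _ A p _ S γ n hγ h s t
  have h1 := h s t
  rcases mul_eq_zero.1 h1 with h2 | h2
  · exact absurd h2 hγ
  · have h3 : ((n s - n t : ℤ) : ResidueField A) = 0 := by
      push_cast; exact h2
    exact (CharP.intCast_eq_zero_iff (ResidueField A) p _).1 h3

/-- `MrrRegOfValSpec` holds. -/
theorem mrr_regOfValSpec : MrrRegOfValSpec := by
  intro K _ k _ F _ _ F₁ _ _ V₁ V₂ red₁ Q cen hval e he₁ he₂ hereg heQ harch f hf hfreg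
  obtain ⟨m, hm⟩ := harch f
  have hem₁ : e ^ m * f ∈ V₁ := V₁.mul_mem _ _ (pow_mem he₁ m) hf
  have h1 := hval (e ^ m * f) hem₁ hm (fun R hR =>
    R.toValuationSubring.mul_mem _ _ (pow_mem (hereg R hR) m) (hfreg R hR))
  have h2 := hval e he₁ he₂ hereg
  have hinv : (red₁ ⟨e, he₁⟩)⁻¹ ∈ Q.toValuationSubring := by
    have h3 := (ValuationSubring.mem_nonunits_iff_or Q.toValuationSubring).not.1 heQ
    push Not at h3
    exact h3.2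
  have hne : red₁ ⟨e, he₁⟩ ≠ 0 := by
    have h3 := (ValuationSubring.mem_nonunits_iff_or Q.toValuationSubring).not.1 heQ
    push Not at h3
    exact h3.1
  have e1 : red₁ ⟨e ^ m * f, hem₁⟩ = (red₁ ⟨e, he₁⟩) ^ m * red₁ ⟨f, hf⟩ := by
    rw [← map_pow, ← map_mul]
    rfl
  have e2 : red₁ ⟨f, hf⟩ = ((red₁ ⟨e, he₁⟩)⁻¹) ^ m * red₁ ⟨e ^ m * f, hem₁⟩ := by
    rw [e1, ← mul_assoc, ← mul_pow, inv_mul_cancel₀ hne, one_pow, one_mul]
  rw [e2]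
  exact Q.toValuationSubring.mul_mem _ _ (pow_mem hinv m) h1

end Fermat.Agent.MR
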