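import Mathlib
import Fermat.Agent.MR.Rigid.Spec

/-!
# PROGRAM MR (S44), block `mrr` : (W1), ABSTRACT FORM

Owner: helper12 (second: helper29).  Namespace `Fermat.Agent.MR`, prefix `mrr` / `Mrr`.

`K ⊇ A`, `F / K`, `V₁ V₂`, `red₁` as in (R-ABS); `ϖ` a uniformiser of the field of rationality `L`.
At every node `s` : a constant `κ_s` (`u_s w_s = κ_s`) with `v(κ_s) = e_s r v(ϖ)`
(`r = e(L / K₀)`, `e_s` the thickness), and the SLOPE FORMULA FOR FUNCTIONS WITHOUT ZEROS AND POLES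
ON THE ANNULUS (`mrs_slope_zero_free` of block `mrs`, consumed as a hypothesis):
`v(c₁) / v(c₂) = v(κ_s) ^ ord_{ν₁ s} red₁ (c₁ g)`.

For a Kummer function `f` (`div f = p D`) with normalisations `c₁ f ∈ V₁ˣ`, `c₂ f ∈ V₂ˣ` and local
equations `q_s` of `D` at the nodes (`q_s ∈ V₁ˣ`, `ϖ^(-n_s) q_s ∈ V₂ˣ`) :

* `mrr_W1_key` : **`p n_s + (m_s - p o_s) e_s r` is independent of `s`**, where
  `m_s = ord_{ν₁ s} red₁ (c₁ f)` and `o_s = ord_{ν₁ s} red₁ q_s`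
  (it is `(v₂(f) - v₁(f)) / v(ϖ)`);
* `mrr_W1_tame` : if `p ∤ r` (split case, `L ⊆ K₀(ζ_p)`) then `e_s m_s ≡ e_t m_t mod p`
  — NO rigidity needed;
* `mrr_W1_wild` : if `r = p r'`, `p ∤ r'`, and `n_s ≡ n_t mod p` (the output of (R-ABS)) then
  `e_s m_s ≡ e_t m_t mod p`.
-/

set_option autoImplicit false
set_option linter.unusedSectionVars false
set_option linter.unusedVariables false

noncomputable section

namespace Fermat.Agent.MR

open AlgebraicCurve IsLocalRing Fermat.Agent.G Fermat.Agent.TT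

section W1

variable {K : Type*} [Field K] (A : ValuationSubring K) {F : Type*} [Field F] [Algebra K F]
variable {F₁ : Type*} [Field F₁] [Algebra (ResidueField A) F₁]
variable {S : Type*}

theorem mrr_isU_inv {V : ValuationSubring F} {x : F} (hx : TtalIsU V x) : TtalIsU V x⁻¹ :=
  ⟨hx.2, by rw [inv_inv]; exact hx.1⟩

/-- the order of the reduction of a product of units. -/
theorem mrr_ord_red_mul {V : ValuationSubring F} (red : V →+* F₁)
    (hker : ∀ x : V, red x = 0 ↔ (x : F) ∈ V.nonunits)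
    (Q : Place (ResidueField A) F₁) {x y : F} (hx0 : x ≠ 0) (hy0 : y ≠ 0)
    (hx : TtalIsU V x) (hy : TtalIsU V y) (hxy : x * y ∈ V) :
    Q.ord (red ⟨x * y, hxy⟩) = Q.ord (red ⟨x, hx.1⟩) + Q.ord (red ⟨y, hy.1⟩) := by
  have hne : ∀ {z : F} (hz0 : z ≠ 0) (hz : TtalIsU V z), red ⟨z, hz.1⟩ ≠ 0 := by
    intro z hz0 hz h0
    have h1 := (hker ⟨z, hz.1⟩).1 h0
    rcases (ValuationSubring.mem_nonunits_iff_or V).1 h1 with h2 | h2
    · exact hz0 h2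
    · exact h2 hz.2
  have e : (⟨x * y, hxy⟩ : V) = ⟨x, hx.1⟩ * ⟨y, hy.1⟩ := rfl
  rw [e, map_mul, Q.ord_mul (hne hx0 hx) (hne hy0 hy)]

/-- the order of the reduction of a power of a unit. -/
theorem mrr_ord_red_pow {V : ValuationSubring F} (red : V →+* F₁)
    (Q : Place (ResidueField A) F₁) {x : F} (hx : x ∈ V) (n : ℕ) (hxn : x ^ n ∈ V) :
    Q.ord (red ⟨x ^ n, hxn⟩) = n * Q.ord (red ⟨x, hx⟩) := by
  have e : (⟨x ^ n, hxn⟩ : V) = ⟨x, hx⟩ ^ n := rfl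
  rw [e, map_pow, ← zpow_natCast, Q.ord_zpow]

/-- the order of the reduction of the inverse of a unit. -/
theorem mrr_ord_red_inv {V : ValuationSubring F} (red : V →+* F₁)
    (Q : Place (ResidueField A) F₁) {x : F} (hx0 : x ≠ 0) (hx : TtalIsU V x) :
    Q.ord (red ⟨x⁻¹, hx.2⟩) = -Q.ord (red ⟨x, hx.1⟩) := by
  have e : red ⟨x⁻¹, hx.2⟩ * red ⟨x, hx.1⟩ = 1 := by
    rw [← map_mul]
    have : (⟨x⁻¹, hx.2⟩ : V) * ⟨x, hx.1⟩ = 1 := Subtype.ext (inv_mul_cancel₀ hx0)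
    rw [this, map_one]
  have h1 : red ⟨x⁻¹, hx.2⟩ = (red ⟨x, hx.1⟩)⁻¹ := eq_inv_of_mul_eq_one_left e
  rw [h1, Q.ord_inv]

/-- **(W1), THE KEY IDENTITY.** -/
theorem mrr_W1_key (V₁ V₂ : ValuationSubring F) (red₁ : V₁ →+* F₁)
    (hker₁ : ∀ x : V₁, red₁ x = 0 ↔ (x : F) ∈ V₁.nonunits)
    {ϖ : K} (hϖ0 : ϖ ≠ 0) (hϖ : ϖ ∈ A.nonunits) (p : ℕ)
    (ν₁ : S → Place (ResidueField A) F₁) (cenN : S → Set (Place K F)) (κ : S → K) (e : S → ℕ)
    (r : ℕ) (hκ : ∀ s, A.valuation (κ s) = A.valuation ϖ ^ (e s * r))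
    (hslope : ∀ (s : S) (g : F), g ≠ 0 → (∀ R ∈ cenN s, R.ord g = 0) →
      ∀ (c₁ c₂ : K), c₁ ≠ 0 → c₂ ≠ 0 → ∀ (h₁ : TtalIsU V₁ (algebraMap K F c₁ * g)),
        TtalIsU V₂ (algebraMap K F c₂ * g) →
        A.valuation c₁ / A.valuation c₂ =
          A.valuation (κ s) ^ ((ν₁ s).ord (red₁ ⟨algebraMap K F c₁ * g, h₁.1⟩)))
    (D : Divisor K F) {f : F} (hf0 : f ≠ 0) (hfD : ∀ R : Place K F, R.ord f = (p : ℤ) * D R)
    {c₁ c₂ : K} (hc₁ : c₁ ≠ 0) (hc₂ : c₂ ≠ 0) (hf₁ : TtalIsU V₁ (algebraMap K F c₁ * f))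
    (hf₂ : TtalIsU V₂ (algebraMap K F c₂ * f)) (n o : S → ℤ)
    (hq : ∀ s, ∃ q : F, q ≠ 0 ∧ ∃ hq₁ : TtalIsU V₁ q,
      TtalIsU V₂ (algebraMap K F ϖ ^ (-(n s)) * q) ∧ (∀ R ∈ cenN s, R.ord q = D R) ∧
      (ν₁ s).ord (red₁ ⟨q, hq₁.1⟩) = o s) :
    ∀ s t : S,
      (p : ℤ) * n s + ((ν₁ s).ord (red₁ ⟨algebraMap K F c₁ * f, hf₁.1⟩) - p * o s) * (e s * r)
      = (p : ℤ) * n t + ((ν₁ t).ord (red₁ ⟨algebraMap K F c₁ * f, hf₁.1⟩) - p * o t) * (e t * r) := by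
  have hvϖ0 : A.valuation ϖ ≠ 0 := (Valuation.ne_zero_iff _).2 hϖ0
  have hvϖ1 : A.valuation ϖ < 1 := (ValuationSubring.mem_nonunits_iff A).1 hϖ
  have hvc₂ : A.valuation c₂ ≠ 0 := (Valuation.ne_zero_iff _).2 hc₂
  have hc₁f0 : algebraMap K F c₁ * f ≠ 0 := mul_ne_zero ((map_ne_zero _).2 hc₁) hf0
  -- the exponent at one node
  have key : ∀ s, A.valuation c₁ / A.valuation c₂ = A.valuation ϖ ^
      ((p : ℤ) * n s + ((ν₁ s).ord (red₁ ⟨algebraMap K F c₁ * f, hf₁.1⟩) - p * o s)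
        * (e s * r)) := by
    intro s
    obtain ⟨q, hq0, hq₁, hq₂, hqD, hqo⟩ := hq s
    have hqp0 : q ^ p ≠ 0 := pow_ne_zero p hq0
    set g : F := f * (q ^ p)⁻¹ with hg
    have hg0 : g ≠ 0 := mul_ne_zero hf0 (inv_ne_zero hqp0)
    have hfree : ∀ R ∈ cenN s, R.ord g = 0 := by
      intro R hR
      rw [hg, R.ord_mul hf0 (inv_ne_zero hqp0), R.ord_inv, ← zpow_natCast, R.ord_zpow, hfD R,
        hqD R hR]
      ring
    have hqpU : TtalIsU V₁ (q ^ p)⁻¹ := mrr_isU_inv (ttal_isU_pow hq₁ p)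
    have hg₁ : TtalIsU V₁ (algebraMap K F c₁ * g) := by
      have : algebraMap K F c₁ * g = (algebraMap K F c₁ * f) * (q ^ p)⁻¹ := by
        rw [hg]; ring
      rw [this]
      exact ttal_isU_mul hf₁ hqpU
    have hp0 : algebraMap K F ϖ ≠ 0 := (map_ne_zero _).2 hϖ0
    have hg₂ : TtalIsU V₂ (algebraMap K F (c₂ * ϖ ^ ((p : ℤ) * n s)) * g) := by
      have : algebraMap K F (c₂ * ϖ ^ ((p : ℤ) * n s)) * g
          = (algebraMap K F c₂ * f) * ((algebraMap K F ϖ ^ (-(n s)) * q) ^ p)⁻¹ := by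
        rw [hg, map_mul, map_zpow₀, mul_pow, mul_inv, ← zpow_natCast (algebraMap K F ϖ ^ (-(n s))),
          ← zpow_mul, ← zpow_neg]
        have : -(-(n s) * (p : ℤ)) = (p : ℤ) * n s := by ring
        rw [this]
        ring
      rw [this]
      exact ttal_isU_mul hf₂ (mrr_isU_inv (ttal_isU_pow hq₂ p))
    have hc₂' : c₂ * ϖ ^ ((p : ℤ) * n s) ≠ 0 := mul_ne_zero hc₂ (zpow_ne_zero _ hϖ0)
    have hs := hslope s g hg0 hfree c₁ (c₂ * ϖ ^ ((p : ℤ) * n s)) hc₁ hc₂' hg₁ hg₂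
    -- the order of `red₁ (c₁ g)`
    have hord : (ν₁ s).ord (red₁ ⟨algebraMap K F c₁ * g, hg₁.1⟩)
        = (ν₁ s).ord (red₁ ⟨algebraMap K F c₁ * f, hf₁.1⟩) - p * o s := by
      have e1 : (⟨algebraMap K F c₁ * g, hg₁.1⟩ : V₁)
          = ⟨(algebraMap K F c₁ * f) * (q ^ p)⁻¹, by
              have : algebraMap K F c₁ * g = (algebraMap K F c₁ * f) * (q ^ p)⁻¹ := by
                rw [hg]; ring
              rw [← this]; exact hg₁.1⟩ := by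
        apply Subtype.ext
        show algebraMap K F c₁ * g = (algebraMap K F c₁ * f) * (q ^ p)⁻¹
        rw [hg]; ring
      rw [e1, mrr_ord_red_mul A red₁ hker₁ (ν₁ s) hc₁f0 (inv_ne_zero hqp0) hf₁ hqpU,
        mrr_ord_red_inv A red₁ (ν₁ s) hqp0 (ttal_isU_pow hq₁ p),
        mrr_ord_red_pow A red₁ (ν₁ s) hq₁.1 p, hqo]
      ring
    rw [hord, hκ s, map_mul, map_zpow₀] at hs
    -- solve for `v c₁ / v c₂`
    have h1 : A.valuation c₁ / A.valuation c₂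
        = (A.valuation c₁ / (A.valuation c₂ * A.valuation ϖ ^ ((p : ℤ) * n s)))
          * A.valuation ϖ ^ ((p : ℤ) * n s) := by
      have := zpow_ne_zero ((p : ℤ) * n s) hvϖ0
      field_simp
    rw [h1, hs, ← zpow_natCast (A.valuation ϖ) (e s * r), ← zpow_mul, ← zpow_add₀ hvϖ0]
    congr 1
    push_cast
    ring
  intro s t
  have h := (key s).symm.trans (key t)
  have hpos : 0 < A.valuation ϖ := zero_lt_iff.2 hvϖ0
  exact zpow_right_injective₀ hpos (ne_of_lt hvϖ1) h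

/-- **(W1), tame case** (`p ∤ r`) : pure arithmetic on the key identity. -/
theorem mrr_W1_tame {p : ℕ} (hp : p.Prime) {r : ℕ} (hr : ¬ p ∣ r) (n o m : S → ℤ) (e : S → ℕ)
    (key : ∀ s t : S, (p : ℤ) * n s + (m s - p * o s) * (e s * r)
      = (p : ℤ) * n t + (m t - p * o t) * (e t * r)) :
    ∀ s t : S, (p : ℤ) ∣ (e s : ℤ) * m s - (e t : ℤ) * m t := by
  intro s t
  have hpZ : Prime (p : ℤ) := Nat.prime_iff_prime_int.1 hp
  have h1 : (p : ℤ) ∣ ((e s : ℤ) * m s - (e t : ℤ) * m t) * (r : ℤ) := by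
    refine ⟨n t - n s + o s * (e s * r) - o t * (e t * r), ?_⟩
    linear_combination key s t
  rcases hpZ.dvd_or_dvd h1 with h2 | h2
  · exact h2
  · exact absurd (Int.natCast_dvd_natCast.1 h2) hr

/-- **(W1), wild case** (`r = p r'`, `p ∤ r'`, `n_s ≡ n_t mod p`). -/
theorem mrr_W1_wild {p : ℕ} (hp : p.Prime) {r' : ℕ} (hr : ¬ p ∣ r') (n o m : S → ℤ) (e : S → ℕ)
    (key : ∀ s t : S, (p : ℤ) * n s + (m s - p * o s) * (e s * (p * r' : ℕ))
      = (p : ℤ) * n t + (m t - p * o t) * (e t * (p * r' : ℕ)))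
    (hn : ∀ s t : S, (p : ℤ) ∣ n s - n t) :
    ∀ s t : S, (p : ℤ) ∣ (e s : ℤ) * m s - (e t : ℤ) * m t := by
  intro s t
  have hpZ : Prime (p : ℤ) := Nat.prime_iff_prime_int.1 hp
  have hp0 : (p : ℤ) ≠ 0 := by exact_mod_cast hp.ne_zero
  -- divide the key identity by `p`
  have h0 : (p : ℤ) * (n s + (m s - p * o s) * (e s * r'))
      = (p : ℤ) * (n t + (m t - p * o t) * (e t * r')) := by
    have := key s t
    push_cast at this
    linear_combination this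
  have h1 := mul_left_cancel₀ hp0 h0
  obtain ⟨d, hd⟩ := hn s t
  have h2 : (p : ℤ) ∣ ((e s : ℤ) * m s - (e t : ℤ) * m t) * (r' : ℤ) := by
    refine ⟨-d + o s * (e s * r') - o t * (e t * r'), ?_⟩
    linear_combination h1 - hd
  rcases hpZ.dvd_or_dvd h2 with h3 | h3
  · exact h3
  · exact absurd (Int.natCast_dvd_natCast.1 h3) hr

end W1

end Fermat.Agent.MR
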