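import Mathlib
import Fermat.Agent.MR.Rigid.Div
import Fermat.Agent.MR.Rigid.W1

/-!
# PROGRAM MR (S44), block `mrr` : (R-ABS) + (W1) combined, abstract form

Owner: helper12.  Namespace `Fermat.Agent.MR`, prefix `mrr` / `Mrr`.

* `mrr_W1_all_wild` : (R-ABS) + key identity + wild arithmetic: for an `L`-rational divisor `D₀`
  with `(σ - 1)² D₀ = div h2`, `L`-rational local equations, Kummer function `f₀`, thickness
  `v(κ_s) = e_s (p r') v(ϖ)`, `p ∤ r'`, `γ̄ ≠ 0` : `e_s m_s(f₀) ≡ e_t m_t(f₀) mod p`;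
* `mrr_W1_all_tame` : the same when `v(κ_s) = e_s r v(ϖ)`, `p ∤ r` (no `σ`, no `h2`);
* `mrr_slope_unique`, `mrr_slope_class` : the slope `ord_Q red₁ (c f)` does not depend on the
  normalisation, and `m(a f₀ g^p) = m(f₀) + p m(g)`;
* `mrr_W1_class` : passage from one Kummer pair `(D₀, f₀)` to any pair `(D, f)` with
  `D - D₀` principal.
-/

set_option autoImplicit false
set_option linter.unusedSectionVars false
set_option linter.unusedVariables false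

noncomputable section

namespace Fermat.Agent.MR

open AlgebraicCurve IsLocalRing Fermat.Agent.G Fermat.Agent.TT

section All

variable {K : Type*} [Field K] {A : ValuationSubring K} {F : Type*} [Field F] [Algebra K F]
variable {F₁ F₂ : Type*} [Field F₁] [Field F₂] [Algebra (ResidueField A) F₁]
  [Algebra (ResidueField A) F₂]
variable {S : Type*}
variable {V₁ V₂ : ValuationSubring F} {red₁ : V₁ →+* F₁} {red₂ : V₂ →+* F₂}
  {σ : SemilinearAut K F} {FL : Subfield F} {ϖ : K}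
  {ν₁ : S → Place (ResidueField A) F₁} {ν₂ : S → Place (ResidueField A) F₂}
  {cen₁ : Place (ResidueField A) F₁ → Set (Place K F)}
  {cen₂ : Place (ResidueField A) F₂ → Set (Place K F)}
  {cenN : S → Set (Place K F)}

/-- the slope formula for functions without zeros and poles on the annuli (hypothesis of (W1), in
the literal shape of the third conclusion of `mrs_slope_zero_free`). -/
def MrrSlope0 (V₁ V₂ : ValuationSubring F) (red₁ : V₁ →+* F₁)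
    (ν₁ : S → Place (ResidueField A) F₁) (cenN : S → Set (Place K F)) (κ : S → K) : Prop :=
  ∀ (s : S) (g : F), g ≠ 0 → (∀ R ∈ cenN s, R.ord g = 0) →
    ∀ (c₁ c₂ : K), c₁ ≠ 0 → c₂ ≠ 0 → ∀ (h₁ : TtalIsU V₁ (algebraMap K F c₁ * g)),
      TtalIsU V₂ (algebraMap K F c₂ * g) →
      A.valuation c₁ / A.valuation c₂ =
        A.valuation (κ s) ^ ((ν₁ s).ord (red₁ ⟨algebraMap K F c₁ * g, h₁.1⟩))

/-- **(W1), tame case, all in one.** -/
theorem mrr_W1_all_tame (hker₁ : ∀ x : V₁, red₁ x = 0 ↔ (x : F) ∈ V₁.nonunits)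
    (hϖ0 : ϖ ≠ 0) (hϖ : ϖ ∈ A.nonunits) {p : ℕ} (hp : p.Prime) (κ : S → K) (e : S → ℕ) {r : ℕ}
    (hr : ¬ p ∣ r) (hκ : ∀ s, A.valuation (κ s) = A.valuation ϖ ^ (e s * r))
    (hslope : MrrSlope0 V₁ V₂ red₁ ν₁ cenN κ)
    (D : Divisor K F) {f : F} (hf0 : f ≠ 0) (hfD : ∀ R : Place K F, R.ord f = (p : ℤ) * D R)
    {c₁ c₂ : K} (hc₁ : c₁ ≠ 0) (hc₂ : c₂ ≠ 0) (hf₁ : TtalIsU V₁ (algebraMap K F c₁ * f))
    (hf₂ : TtalIsU V₂ (algebraMap K F c₂ * f))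
    (hq : ∀ s, ∃ q : F, q ≠ 0 ∧ TtalIsU V₁ q ∧
      (∃ n : ℤ, TtalIsU V₂ (algebraMap K F ϖ ^ n * q)) ∧ ∀ R ∈ cenN s, R.ord q = D R) :
    ∀ s t : S, (p : ℤ) ∣
      (e s : ℤ) * (ν₁ s).ord (red₁ ⟨algebraMap K F c₁ * f, hf₁.1⟩)
        - (e t : ℤ) * (ν₁ t).ord (red₁ ⟨algebraMap K F c₁ * f, hf₁.1⟩) := by
  classical
  choose q hq0 hq₁ hq₂ hqD using hq
  choose n hn using hq₂
  have key := mrr_W1_key A V₁ V₂ red₁ hker₁ hϖ0 hϖ p ν₁ cenN κ e r hκ hslope D hf0 hfD hc₁ hc₂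
    hf₁ hf₂ (fun s => -(n s)) (fun s => (ν₁ s).ord (red₁ ⟨q s, (hq₁ s).1⟩))
    (fun s => ⟨q s, hq0 s, hq₁ s, by rw [neg_neg]; exact hn s, hqD s, rfl⟩)
  exact mrr_W1_tame hp hr _ _ _ e key

/-- **(R-ABS) + (W1), wild case, all in one.** -/
theorem mrr_W1_all_wild (M : MrrModel A V₁ V₂ red₁ red₂ σ FL ϖ ν₁ ν₂ cen₁ cen₂ cenN)
    (hc₁' : ∀ Q, ∀ R ∈ cen₁ Q, σ⁻¹ • R ∈ cen₁ Q) (hc₂' : ∀ Q, ∀ R ∈ cen₂ Q, σ⁻¹ • R ∈ cen₂ Q)
    (hcN : ∀ s, ∀ R ∈ cenN s, σ⁻¹ • R ∈ cenN s) (γ : A) (hγ : MrrGamma A σ ϖ γ)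
    (hγ0 : residue A γ ≠ 0) {p : ℕ} (hp : p.Prime) [CharP (ResidueField A) p]
    (D : Divisor K F) {h2 : F} (hFL : h2 ∈ FL) (h0 : h2 ≠ 0)
    (hD : ∀ R : Place K F, R.ord h2 = ((σ * σ) • D - (2 : ℤ) • (σ • D) + D) R)
    (L₁ : ∀ Q : Place (ResidueField A) F₁, (∀ s, Q ≠ ν₁ s) → ∃ q : F, q ≠ 0 ∧ q ∈ FL ∧
      TtalIsU V₁ q ∧ ∀ R ∈ cen₁ Q, R.ord q = D R)
    (L₂ : ∀ Q : Place (ResidueField A) F₂, (∀ s, Q ≠ ν₂ s) → ∃ q : F, q ≠ 0 ∧ q ∈ FL ∧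
      TtalIsU V₂ q ∧ ∀ R ∈ cen₂ Q, R.ord q = D R)
    (LN : ∀ s : S, ∃ q : F, q ≠ 0 ∧ q ∈ FL ∧ TtalIsU V₁ q ∧ ∀ R ∈ cenN s, R.ord q = D R)
    (κ : S → K) (e : S → ℕ) {r' : ℕ} (hr : ¬ p ∣ r')
    (hκ : ∀ s, A.valuation (κ s) = A.valuation ϖ ^ (e s * (p * r')))
    (hslope : MrrSlope0 V₁ V₂ red₁ ν₁ cenN κ)
    {f : F} (hf0 : f ≠ 0) (hfD : ∀ R : Place K F, R.ord f = (p : ℤ) * D R)
    {c₁ c₂ : K} (hc₁ : c₁ ≠ 0) (hc₂ : c₂ ≠ 0) (hf₁ : TtalIsU V₁ (algebraMap K F c₁ * f))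
    (hf₂ : TtalIsU V₂ (algebraMap K F c₂ * f)) :
    ∀ s t : S, (p : ℤ) ∣
      (e s : ℤ) * (ν₁ s).ord (red₁ ⟨algebraMap K F c₁ * f, hf₁.1⟩)
        - (e t : ℤ) * (ν₁ t).ord (red₁ ⟨algebraMap K F c₁ * f, hf₁.1⟩) := by
  classical
  choose q hq0 hqFL hq₁ hqD using LN
  have hvg : ∀ s, ∃ n : ℤ, TtalIsU V₂ (algebraMap K F ϖ ^ n * q s) :=
    fun s => M.vg₂ (q s) (hqFL s) (hq0 s)
  choose n hn using hvg
  -- rigidity
  have hrig := mrr_div M hc₁' hc₂' hcN γ hγ D hFL h0 hD (fun s => -(n s)) L₁ L₂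
    (fun s => ⟨q s, hq0 s, hqFL s, hq₁ s, by rw [neg_neg]; exact hn s, hqD s⟩)
  have hmod : ∀ s t : S, (p : ℤ) ∣ (-(n s)) - (-(n t)) := by
    intro s t
    have h1 := hrig s t
    rcases mul_eq_zero.1 h1 with h2' | h2'
    · exact absurd h2' hγ0
    · have h3 : (((-(n s)) - (-(n t)) : ℤ) : ResidueField A) = 0 := by
        push_cast
        push_cast at h2'
        exact h2'
      exact (CharP.intCast_eq_zero_iff (ResidueField A) p _).1 h3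
  have key := mrr_W1_key A V₁ V₂ red₁ M.ker₁ M.ϖ_ne M.ϖ_mem p ν₁ cenN κ e (p * r') hκ hslope D
    hf0 hfD hc₁ hc₂ hf₁ hf₂ (fun s => -(n s)) (fun s => (ν₁ s).ord (red₁ ⟨q s, (hq₁ s).1⟩))
    (fun s => ⟨q s, hq0 s, hq₁ s, by rw [neg_neg]; exact hn s, hqD s, rfl⟩)
  exact mrr_W1_wild hp hr _ _ _ e key hmod

end All

section Class

variable {K : Type*} [Field K] {A : ValuationSubring K} {F : Type*} [Field F] [Algebra K F]
variable {F₁ : Type*} [Field F₁] [Algebra (ResidueField A) F₁]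

/-- a constant which is a unit of `V₁` reduces to a nonzero constant, so it does not change the
orders of reductions. -/
theorem mrr_slope_unique {V₁ : ValuationSubring F} {red₁ : V₁ →+* F₁}
    (hker₁ : ∀ x : V₁, red₁ x = 0 ↔ (x : F) ∈ V₁.nonunits)
    (hKA : ∀ a : K, algebraMap K F a ∈ V₁ → a ∈ A)
    (hrc₁ : ∀ (a : A) (h : algebraMap K F (a : K) ∈ V₁),
      red₁ ⟨algebraMap K F (a : K), h⟩ = algebraMap (ResidueField A) F₁ (residue A a))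
    (Q : Place (ResidueField A) F₁) {f : F} (hf0 : f ≠ 0) {c c' : K} (hc : c ≠ 0) (hc' : c' ≠ 0)
    (h : TtalIsU V₁ (algebraMap K F c * f)) (h' : TtalIsU V₁ (algebraMap K F c' * f)) :
    Q.ord (red₁ ⟨algebraMap K F c * f, h.1⟩) = Q.ord (red₁ ⟨algebraMap K F c' * f, h'.1⟩) := by
  -- `d := c / c'` is a unit constant
  have hcf0 : algebraMap K F c' * f ≠ 0 := mul_ne_zero ((map_ne_zero _).2 hc') hf0
  have hd : TtalIsU V₁ (algebraMap K F (c / c')) := by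
    have e : algebraMap K F (c / c') = (algebraMap K F c * f) * (algebraMap K F c' * f)⁻¹ := by
      rw [map_div₀]
      have := (map_ne_zero (algebraMap K F)).2 hc'
      field_simp
    rw [e]
    exact ttal_isU_mul h (mrr_isU_inv h')
  have hdA : c / c' ∈ A := hKA _ hd.1
  have hd0 : c / c' ≠ 0 := div_ne_zero hc hc'
  have hd0' : algebraMap K F (c / c') ≠ 0 := (map_ne_zero _).2 hd0
  have e1 : (⟨algebraMap K F c * f, h.1⟩ : V₁)
      = ⟨algebraMap K F (c / c') * (algebraMap K F c' * f),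
          V₁.mul_mem _ _ hd.1 h'.1⟩ := by
    apply Subtype.ext
    show algebraMap K F c * f = algebraMap K F (c / c') * (algebraMap K F c' * f)
    rw [map_div₀]
    have := (map_ne_zero (algebraMap K F)).2 hc'
    field_simp
  rw [e1, mrr_ord_red_mul A red₁ hker₁ Q hd0' hcf0 hd h']
  have e2 := hrc₁ ⟨c / c', hdA⟩ hd.1
  have hres : residue A ⟨c / c', hdA⟩ ≠ 0 := by
    intro h0
    have h1 : red₁ ⟨algebraMap K F (c / c'), hd.1⟩ = 0 := by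
      rw [e2, h0, map_zero]
    have h2 := (hker₁ _).1 h1
    rcases (ValuationSubring.mem_nonunits_iff_or V₁).1 h2 with h3 | h3
    · exact hd0' h3
    · exact h3 hd.2
  have e3 : Q.ord (red₁ ⟨algebraMap K F (c / c'), hd.1⟩) = 0 := by
    rw [e2]
    exact Fermat.Agent.S24.PlaceOrd.ord_algebraMap Q _
  rw [e3, zero_add]

/-- **the slope of `a f₀ g^p`** : `m(a f₀ g^p) = m(f₀) + p m(g)`. -/
theorem mrr_slope_class {V₁ : ValuationSubring F} {red₁ : V₁ →+* F₁}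
    (hker₁ : ∀ x : V₁, red₁ x = 0 ↔ (x : F) ∈ V₁.nonunits)
    (hKA : ∀ a : K, algebraMap K F a ∈ V₁ → a ∈ A)
    (hrc₁ : ∀ (a : A) (h : algebraMap K F (a : K) ∈ V₁),
      red₁ ⟨algebraMap K F (a : K), h⟩ = algebraMap (ResidueField A) F₁ (residue A a))
    (Q : Place (ResidueField A) F₁) {f₀ g f : F} (hf₀ : f₀ ≠ 0) (hg0 : g ≠ 0) {a : K} (ha : a ≠ 0)
    (p : ℕ) (hf : f = algebraMap K F a * f₀ * g ^ p)
    {c₀ cg c : K} (hc₀ : c₀ ≠ 0) (hcg : cg ≠ 0) (hc : c ≠ 0)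
    (h₀ : TtalIsU V₁ (algebraMap K F c₀ * f₀)) (hg : TtalIsU V₁ (algebraMap K F cg * g))
    (h : TtalIsU V₁ (algebraMap K F c * f)) :
    Q.ord (red₁ ⟨algebraMap K F c * f, h.1⟩)
      = Q.ord (red₁ ⟨algebraMap K F c₀ * f₀, h₀.1⟩)
        + p * Q.ord (red₁ ⟨algebraMap K F cg * g, hg.1⟩) := by
  have hf0 : f ≠ 0 := by
    rw [hf]
    exact mul_ne_zero (mul_ne_zero ((map_ne_zero _).2 ha) hf₀) (pow_ne_zero p hg0)
  -- another normalisation of `f`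
  set c' : K := c₀ * cg ^ p / a with hc'def
  have hc'0 : c' ≠ 0 := div_ne_zero (mul_ne_zero hc₀ (pow_ne_zero p hcg)) ha
  have e : algebraMap K F c' * f
      = (algebraMap K F c₀ * f₀) * (algebraMap K F cg * g) ^ p := by
    rw [hf, hc'def, map_div₀, map_mul, map_pow]
    have := (map_ne_zero (algebraMap K F)).2 ha
    field_simp
    ring
  have hgp : TtalIsU V₁ ((algebraMap K F cg * g) ^ p) := ttal_isU_pow hg p
  have h' : TtalIsU V₁ (algebraMap K F c' * f) := by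
    rw [e]; exact ttal_isU_mul h₀ hgp
  rw [mrr_slope_unique hker₁ hKA hrc₁ Q hf0 hc hc'0 h h']
  have hc₀f : algebraMap K F c₀ * f₀ ≠ 0 := mul_ne_zero ((map_ne_zero _).2 hc₀) hf₀
  have hcgg : algebraMap K F cg * g ≠ 0 := mul_ne_zero ((map_ne_zero _).2 hcg) hg0
  have e1 : (⟨algebraMap K F c' * f, h'.1⟩ : V₁)
      = ⟨(algebraMap K F c₀ * f₀) * (algebraMap K F cg * g) ^ p,
          V₁.mul_mem _ _ h₀.1 hgp.1⟩ := Subtype.ext e
  rw [e1, mrr_ord_red_mul A red₁ hker₁ Q hc₀f (pow_ne_zero p hcgg) h₀ hgp,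
    mrr_ord_red_pow A red₁ Q hg.1 p]

end Class

end Fermat.Agent.MR
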