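import Mathlib
import Fermat.Agent.MR.Rigid.All
import Fermat.Agent.MR.Gal.OfTop
import Fermat.Agent.MR.Gal.Cen
import Fermat.Agent.MR.Node.Glue
import Fermat.Agent.MR.Slope.Inst
import Fermat.Agent.FF.IntInst.Main

/-!
# PROGRAM MR (S44), block `mrr` : THE CONCRETE RIGIDITY MODEL  (`MrrModel` at the TT model)

Owner: helper12.  Namespace `Fermat.Agent.MR`, prefix `mrri` / `Mrri`.

`K = ℚ̄`, `F = F_ℚ̄(M p)`, `V₁ = ttrV1`, `V₂ = ttraV2`, `red_j = ttraRed_j`, nodes `ttrkS`, branches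
`ttrkSν_j`, centres `ttrglCen_j` / `ttruCenS`, `σ := ffipG (M p) σ`, `FL := mrgFL (M p) H`, `ϖ := π`.

* `MrriReg₁`, `MrriReg₂` : **(G1)** the `V_j`-only regularity at the non-node closed points (the
  literal fields `reg₁`, `reg₂` of `MrrModel`); the only fields not yet closed by a landed or
  branch statement (owner of the separating functions: block `mrn`);
* `mrri_creg` : a function of `F_k(M)` without poles is constant (from Riemann-Roch `l(0) = 1`);
* `mrri_model` : `MrrModel` from `MrgP1 𝔸 H σ π`, `H ≤ I`, (G1), and one node;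
* `mrri_gamma` : `MrrGamma` with `γ = c²` and `γ̄ ≠ 0` from the break datum of `MraP1At`.
-/

set_option autoImplicit false
set_option linter.unusedSectionVars false
set_option linter.unusedVariables false
set_option linter.style.haveILetI false
set_option synthInstance.maxHeartbeats 400000

noncomputable section

namespace Fermat.Agent.MR

open Polynomial ModularCurve AlgebraicCurve IsLocalRing IntermediateField
  Fermat.Agent.G Fermat.Agent.S18 Fermat.Agent.S24 Fermat.Agent.SS Fermat.Agent.FF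
  Fermat.Agent.TT Fermat.Agent.S05

local notation "Qb" => AlgebraicClosure ℚ
local notation "GQ" => (AlgebraicClosure ℚ ≃ₐ[ℚ] AlgebraicClosure ℚ)

/-- `s = π (1 + c π + r π²)` with `r := (s - π (1 + c π)) / π³`. -/
theorem mrri_break_eq {K : Type*} [Field K] (s π c : K) (hπ : π ≠ 0) :
    s = π * (1 + c * π + (s - π * (1 + c * π)) / π ^ 3 * π ^ 2) := by
  field_simp
  ring

/-- the constant `r` is `L`-rational. -/
theorem mrri_r_mem {K F : Type*} [Field K] [Field F] [Algebra K F] (L : Subfield F) (s π c : K)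
    (hs : algebraMap K F s ∈ L) (hπ : algebraMap K F π ∈ L) (hc : algebraMap K F c ∈ L) :
    algebraMap K F ((s - π * (1 + c * π)) / π ^ 3) ∈ L := by
  rw [map_div₀, map_sub, map_mul, map_add, map_mul, map_one, map_pow]
  exact div_mem (sub_mem hs (mul_mem hπ (add_mem (one_mem _) (mul_mem hc hπ)))) (pow_mem hπ 3)

variable (M : ℕ) [NeZero M] {p : ℕ} [Fact p.Prime] [NeZero p]
variable (A : ValuationSubring Qb) (hpM : ¬ p ∣ M) (hA : A.LiesOverPrime p)
variable {τ τ' : LaurentSeries ℤ} (hat : GrdAtlas M A τ τ')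

/-- **(G1), first component** : the literal field `reg₁` of `MrrModel` at the TT model. -/
def MrriReg₁ : Prop :=
  ∀ Q : Place (ResidueField A) ↥(modularFunctionFieldFullC (ResidueField A) M),
    (∀ i, Q ≠ ttrkSν₁ M p A hpM hA hat i) →
    ∀ (f : ↥(modularFunctionFieldBar (M * p))) (hf : f ∈ ttrV1 M A hpM hA),
      (∀ R, ttrglCen₁ M A hpM hA hat Q R → f ∈ R.toValuationSubring) →
      ttraRed1 M A hpM hA ⟨f, hf⟩ ∈ Q.toValuationSubring

/-- **(G1), second component** : the literal field `reg₂` of `MrrModel` at the TT model. -/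
def MrriReg₂ : Prop :=
  ∀ Q : Place (ResidueField A) ↥(modularFunctionFieldFullC (ResidueField A) M),
    (∀ i, Q ≠ ttrkSν₂ M p A hpM hA hat i) →
    ∀ (f : ↥(modularFunctionFieldBar (M * p))) (hf : f ∈ ttraV2 M A hpM hA),
      (∀ R, ttrglCen₂ M A hpM hA hat Q R → f ∈ R.toValuationSubring) →
      ttraRed2 M A hpM hA ⟨f, hf⟩ ∈ Q.toValuationSubring

include hpM hA hat in
/-- a function on a component of the closed fibre without poles is constant. -/
theorem mrri_creg (x : ↥(modularFunctionFieldFullC (ResidueField A) M))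
    (hx : ∀ Q : Place (ResidueField A) ↥(modularFunctionFieldFullC (ResidueField A) M),
      x ∈ Q.toValuationSubring) :
    ∃ c : ResidueField A,
      x = algebraMap (ResidueField A) ↥(modularFunctionFieldFullC (ResidueField A) M) c := by
  obtain ⟨-, RRk, -⟩ := ffii_bundle M A hpM hA hat
  by_cases hx0 : x = 0
  · exact ⟨0, by rw [hx0, map_zero]⟩
  have h1 : (1 : ↥(modularFunctionFieldFullC (ResidueField A) M)) ∈
      riemannRochSpace (0 : Divisor (ResidueField A)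
        ↥(modularFunctionFieldFullC (ResidueField A) M)) := by
    rw [mem_riemannRochSpace_iff]
    intro v
    right
    simp
  have hxm : x ∈ riemannRochSpace (0 : Divisor (ResidueField A)
      ↥(modularFunctionFieldFullC (ResidueField A) M)) := by
    rw [mem_riemannRochSpace_iff]
    intro v
    right
    have := PlaceOrd.ord_nonneg_of_mem (v := v) (hx v)
    simpa using this
  have hne : (⟨1, h1⟩ : riemannRochSpace (0 : Divisor (ResidueField A)
      ↥(modularFunctionFieldFullC (ResidueField A) M))) ≠ 0 := fun h =>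
    one_ne_zero (congrArg Subtype.val h)
  obtain ⟨c, hc⟩ := (finrank_eq_one_iff_of_nonzero' _ hne).mp RRk.zero ⟨x, hxm⟩
  refine ⟨c, ?_⟩
  have := congrArg Subtype.val hc
  simp only [Submodule.coe_smul] at this
  rw [← this, Algebra.smul_def, mul_one]

variable {M A}

/-- **`MrrModel` at the TT model.** -/
theorem mrri_model (hreg₁ : MrriReg₁ M A hpM hA hat) (hreg₂ : MrriReg₂ M A hpM hA hat)
    {H : Subgroup GQ} {σ : GQ} {π : Qb} (hP : MrgP1 A H σ π) (hHI : H ≤ A.inertiaSubgroupIn ℚ)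
    (i₀ : ttrkS M p A hpM hA hat) :
    MrrModel A (ttrV1 M A hpM hA) (ttraV2 M A hpM hA) (ttraRed1 M A hpM hA)
      (ttraRed2 M A hpM hA) (ffipG (M * p) σ) (mrgFL (M * p) H) π
      (ttrkSν₁ M p A hpM hA hat) (ttrkSν₂ M p A hpM hA hat)
      (fun Q => {R | ttrglCen₁ M A hpM hA hat Q R}) (fun Q => {R | ttrglCen₂ M A hpM hA hat Q R})
      (fun i => {R | ttruCenS M A hpM hA hat i R}) where
  ker₁ := (mrs_model_inst M A hpM hA).ker₁
  ker₂ := (mrs_model_inst M A hpM hA).ker₂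
  const₁ := fun a => (mrs_model_inst M A hpM hA).const₁ a a.2
  const₂ := fun a => (mrs_model_inst M A hpM hA).const₂ a a.2
  rc₁ := (mrs_model_inst M A hpM hA).red_const₁
  rc₂ := (mrs_model_inst M A hpM hA).red_const₂
  ϖ_mem := mrg_rigid_ϖ_mem hP
  ϖ_ne := hP.pi_ne
  ϖ_FL := mrg_rigid_ϖ_FL (M * p) hP
  σ_FL := mrg_rigid_σ_FL (M * p) hP
  vg₁ := mrg_rigid_vg₁ hpM hA hP
  vg₂ := mrg_rigid_vg₂ hpM hA hP
  res := mrg_rigid_res hA (M * p) hHI
  move₁ := mrg_rigid_move₁ hpM hA hP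
  move₂ := mrg_rigid_move₂ hpM hA hP
  creg₁ := mrri_creg M A hpM hA hat
  creg₂ := mrri_creg M A hpM hA hat
  reg₁ := fun Q hQ f hf h => hreg₁ Q hQ f hf h
  reg₂ := fun Q hQ f hf h => hreg₂ Q hQ f hf h
  glue := by
    intro s f h₁ h₂ hreg
    obtain ⟨c, hc₁, hc₂, -⟩ := mrn_glue M A hpM hA hat s f ⟨h₁, h₂⟩ hreg
    exact ⟨c, hc₁, hc₂⟩
  nodes := ⟨i₀⟩

/-- `V₁ ∩ ℚ̄ ⊆ 𝔸`. -/
theorem mrri_hKA (a : Qb)
    (h : algebraMap Qb ↥(modularFunctionFieldBar (M * p)) a ∈ ttrV1 M A hpM hA) : a ∈ A := by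
  by_contra ha
  have ha0 : a ≠ 0 := fun h0 => ha (h0 ▸ A.zero_mem)
  have hinv : a⁻¹ ∈ A.nonunits := by
    rw [ValuationSubring.mem_nonunits_iff_or]
    right
    rwa [inv_inv]
  have h1 := (mrs_model_inst M A hpM hA).max₁ a⁻¹ hinv
  rw [ValuationSubring.mem_nonunits_iff_or] at h1
  rcases h1 with h1 | h1
  · exact inv_ne_zero ha0 ((map_eq_zero _).1 h1)
  · rw [map_inv₀, inv_inv] at h1
    exact h1 h

/-- **(γ) at the TT model** : `γ = c²`, `γ̄ ≠ 0`, from the break datum `σ π = π (1 + c π) mod π³`,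
`c` an `H`-fixed unit. -/
theorem mrri_gamma {H : Subgroup GQ} {σ : GQ} {π : Qb}
    {S : Type} {ν₁ ν₂ : S → Place (ResidueField A) ↥(modularFunctionFieldFullC (ResidueField A) M)}
    {cen₁ cen₂ : Place (ResidueField A) ↥(modularFunctionFieldFullC (ResidueField A) M) →
      Set (Place Qb ↥(modularFunctionFieldBar (M * p)))}
    {cenN : S → Set (Place Qb ↥(modularFunctionFieldBar (M * p)))}
    (Mo : MrrModel A (ttrV1 M A hpM hA) (ttraV2 M A hpM hA) (ttraRed1 M A hpM hA)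
      (ttraRed2 M A hpM hA) (ffipG (M * p) σ) (mrgFL (M * p) H) π ν₁ ν₂ cen₁ cen₂ cenN)
    {c : Qb} (hcfix : MrgFix H c) (hcu : A.valuation c = 1)
    (hpic : A.valuation (σ π - π * (1 + c * π)) ≤ A.valuation π ^ 3) :
    ∃ γ : A, MrrGamma A (ffipG (M * p) σ) π γ ∧ residue A γ ≠ 0 := by
  have hπ0 : π ≠ 0 := Mo.ϖ_ne
  have hv0 : A.valuation π ≠ 0 := (A.valuation.ne_zero_iff).mpr hπ0
  have hcA : c ∈ A := (A.valuation_le_one_iff _).mp hcu.le
  have hr : (σ π - π * (1 + c * π)) / π ^ 3 ∈ A := by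
    rw [← A.valuation_le_one_iff, map_div₀, map_pow]
    exact (div_le_one₀ (zero_lt_iff.mpr (pow_ne_zero 3 hv0))).mpr hpic
  have hcFL : algebraMap Qb ↥(modularFunctionFieldBar (M * p)) c ∈ mrgFL (M * p) H := by
    intro τ hτ
    rw [ffipG_algebraMap, hcfix τ hτ]
  have hπFL := Mo.ϖ_FL
  have hσπFL : algebraMap Qb ↥(modularFunctionFieldBar (M * p)) (σ π) ∈ mrgFL (M * p) H := by
    have := Mo.σ_FL _ hπFL
    rwa [ffipG_algebraMap] at this
  have hrFL : algebraMap Qb ↥(modularFunctionFieldBar (M * p))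
      ((σ π - π * (1 + c * π)) / π ^ 3) ∈ mrgFL (M * p) H :=
    mrri_r_mem _ _ _ _ hσπFL hπFL hcFL
  have hε : SemilinearAut.baseAut (ffipG (M * p) σ) π =
      π * (1 + ((⟨c, hcA⟩ : A) : Qb) * π +
        ((⟨(σ π - π * (1 + c * π)) / π ^ 3, hr⟩ : A) : Qb) * π ^ 2) := by
    exact mrri_break_eq (σ π) π c hπ0
  have hγ : MrrGamma A (ffipG (M * p) σ) π ((⟨c, hcA⟩ : A) * ⟨c, hcA⟩) :=
    mrr_gamma Mo (mrri_hKA hpM hA) ⟨c, hcA⟩ ⟨_, hr⟩ hcFL hrFL hε
  have hcu' : residue A ⟨c, hcA⟩ ≠ 0 := by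
    intro h0
    have hm : (⟨c, hcA⟩ : A) ∈ maximalIdeal A := (residue_eq_zero_iff _).1 h0
    have h1 : A.valuation c < 1 := (A.valuation_lt_one_iff ⟨c, hcA⟩).1 hm
    rw [hcu] at h1
    exact lt_irrefl _ h1
  refine ⟨_, hγ, ?_⟩
  have e : residue A ((⟨c, hcA⟩ : A) * ⟨c, hcA⟩) = residue A ⟨c, hcA⟩ * residue A ⟨c, hcA⟩ :=
    map_mul _ _ _
  rw [e]
  exact mul_ne_zero hcu' hcu'

end Fermat.Agent.MR
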