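import Mathlib
import Fermat.Agent.MR.Rigid.InstModel
import Fermat.Agent.MR.Gal.Tame
import Fermat.Agent.MR.E.Split
import Fermat.Agent.MR.Slope.PlugRigid
import Fermat.Agent.MR.M.Leaf
import Fermat.Agent.MR.M.Slope

/-!
# PROGRAM MR (S44), block `mrr` : THE CONCRETE (W1)  (`MrmW1Leaf`)

Owner: helper12.  Namespace `Fermat.Agent.MR`, prefix `mrri` / `Mrri`.

`mrri_W1 : … → MrmW1Leaf M A hpM hA hat` : helper26's literal (W1) leaf (`MR/M/Leaf.lean`) from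

* **(G1)** `MrriReg₁`, `MrriReg₂` (`MR/Rigid/InstModel.lean`) : `V_j`-only regularity at the non-node points;
* **(ONE-ZERO)** `MrnOneZeroSpec` (block `mrn`), consumed through helper29's `mrs_slope0_inst`;
* **(LOC-EQ)** `MrnLocEq₁Spec`, `MrnLocEq₂Spec`, `MrnLocEqNodeSpec` (block `mrn`) : local equations of
  an `L`-rational divisor.

Everything else is closed: `mrg` (helper9: `MrgP1`, descent, (VG), (MOVE), centres), `mrs`
(helper29: slope formula), `mre` (helper4/helper10: the split case `ϖ = 1 - ζ`), `mrm` (helper26: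
slope calculus), the landed TT ring facts, and the abstract rigidity `mrr_W1_all_wild`,
`mrr_W1_all_tame` (`MR/Rigid/All.lean`).

Two cases for `H = mraH 𝔸 V = Stab_I(V)` :
* WILD (`∃ σ ∈ I₀ ∖ H`) : (P1)-datum `π, c` at `σ`, `v(κ_s) = v(π)^{E_s p (p-1)}`, rigidity;
* TAME (`I₀ ⊆ H`) : `H' := I₀`, `ϖ := 1 - ζ`, `v(κ_s) = v(ϖ)^{E_s (p-1)}`, no rigidity needed.
-/

set_option autoImplicit false
set_option linter.unusedSectionVars false
set_option linter.unusedVariables false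
set_option linter.style.haveILetI false
set_option synthInstance.maxHeartbeats 400000

noncomputable section

namespace Fermat.Agent.MR

open Polynomial ModularCurve AlgebraicCurve IsLocalRing IntermediateField
  Fermat.Agent.G Fermat.Agent.S18 Fermat.Agent.S24 Fermat.Agent.SS Fermat.Agent.FF
  Fermat.Agent.TT Fermat.Agent.S05

local notation "Qb" => AlgebraicClosure ℚ
local notation "GQ" => (AlgebraicClosure ℚ ≃ₐ[ℚ] AlgebraicClosure ℚ)

variable {M : ℕ} [NeZero M] {p : ℕ} [Fact p.Prime] [NeZero p]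
variable {A : ValuationSubring Qb} (hpM : ¬ p ∣ M) (hA : A.LiesOverPrime p)
variable {τ τ' : LaurentSeries ℤ} (hat : GrdAtlas M A τ τ')

/-! ## Adapters : local equations in the `mrgFL` form -/

/-- local equation at a node, `F_L`-form. -/
theorem mrri_loc_node (hLN : MrnLocEqNodeSpec M A hpM hA hat) {H : Subgroup GQ}
    (hHI : H ≤ A.inertiaSubgroupIn ℚ) (D : Divisor Qb ↥(modularFunctionFieldBar (M * p)))
    (hD : ∀ τ ∈ H, ffipG (M * p) τ • D = D) (i : ttrkS M p A hpM hA hat) :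
    ∃ q : ↥(modularFunctionFieldBar (M * p)), q ≠ 0 ∧ q ∈ mrgFL (M * p) H ∧
      TtalIsU (ttrV1 M A hpM hA) q ∧
      ∀ R ∈ {R | ttruCenS M A hpM hA hat i R}, R.ord q = D R := by
  obtain ⟨q, hq0, hqR, hqD, hqU⟩ := hLN (H.subgroupOf (A.inertiaSubgroupIn ℚ)) D
    (fun σ hσ => hD σ.1 (Subgroup.mem_subgroupOf.1 hσ)) i
  refine ⟨q, hq0, fun τ hτ => ?_, hqU, fun R hR => hqD R hR⟩
  exact hqR ⟨τ, hHI hτ⟩ (Subgroup.mem_subgroupOf.2 hτ)

/-- local equation at a non-node point of the first component, `F_L`-form. -/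
theorem mrri_loc₁ (hL₁ : MrnLocEq₁Spec M A hpM hA hat) {H : Subgroup GQ}
    (hHI : H ≤ A.inertiaSubgroupIn ℚ) (D : Divisor Qb ↥(modularFunctionFieldBar (M * p)))
    (hD : ∀ τ ∈ H, ffipG (M * p) τ • D = D)
    (Q : Place (ResidueField A) ↥(modularFunctionFieldFullC (ResidueField A) M))
    (hQ : ∀ s, Q ≠ ttrkSν₁ M p A hpM hA hat s) :
    ∃ q : ↥(modularFunctionFieldBar (M * p)), q ≠ 0 ∧ q ∈ mrgFL (M * p) H ∧
      TtalIsU (ttrV1 M A hpM hA) q ∧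
      ∀ R ∈ {R | ttrglCen₁ M A hpM hA hat Q R}, R.ord q = D R := by
  obtain ⟨q, hq0, hqR, hqD, hqU⟩ := hL₁ (H.subgroupOf (A.inertiaSubgroupIn ℚ)) D
    (fun σ hσ => hD σ.1 (Subgroup.mem_subgroupOf.1 hσ)) Q (fun i => (hQ i).symm)
  refine ⟨q, hq0, fun τ hτ => ?_, hqU, fun R hR => hqD R hR⟩
  exact hqR ⟨τ, hHI hτ⟩ (Subgroup.mem_subgroupOf.2 hτ)

/-- local equation at a non-node point of the second component, `F_L`-form. -/
theorem mrri_loc₂ (hL₂ : MrnLocEq₂Spec M A hpM hA hat) {H : Subgroup GQ}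
    (hHI : H ≤ A.inertiaSubgroupIn ℚ) (D : Divisor Qb ↥(modularFunctionFieldBar (M * p)))
    (hD : ∀ τ ∈ H, ffipG (M * p) τ • D = D)
    (Q : Place (ResidueField A) ↥(modularFunctionFieldFullC (ResidueField A) M))
    (hQ : ∀ s, Q ≠ ttrkSν₂ M p A hpM hA hat s) :
    ∃ q : ↥(modularFunctionFieldBar (M * p)), q ≠ 0 ∧ q ∈ mrgFL (M * p) H ∧
      TtalIsU (ttraV2 M A hpM hA) q ∧
      ∀ R ∈ {R | ttrglCen₂ M A hpM hA hat Q R}, R.ord q = D R := by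
  obtain ⟨q, hq0, hqR, hqD, hqU⟩ := hL₂ (H.subgroupOf (A.inertiaSubgroupIn ℚ)) D
    (fun σ hσ => hD σ.1 (Subgroup.mem_subgroupOf.1 hσ)) Q (fun i => (hQ i).symm)
  refine ⟨q, hq0, fun τ hτ => ?_, hqU, fun R hR => hqD R hR⟩
  exact hqR ⟨τ, hHI hτ⟩ (Subgroup.mem_subgroupOf.2 hτ)

/-! ## The passage from one Kummer pair to another in the same class -/

/-- **the slope of a Kummer function depends on the class only mod `p`.** -/
theorem mrri_class {D D₀ : Divisor.degZero (K := Qb) (F := ↥(modularFunctionFieldBar (M * p)))}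
    {f f₀ : ↥(modularFunctionFieldBar (M * p))} (hDD : Pic0.mk D₀ = Pic0.mk D)
    (hf : f ≠ 0) (hf₀ : f₀ ≠ 0)
    (hfD : ∀ P : Place Qb ↥(modularFunctionFieldBar (M * p)),
      (p : ℤ) * (D : Divisor Qb ↥(modularFunctionFieldBar (M * p))) P = P.ord f)
    (hf₀D : ∀ P : Place Qb ↥(modularFunctionFieldBar (M * p)),
      P.ord f₀ = (p : ℤ) * (D₀ : Divisor Qb ↥(modularFunctionFieldBar (M * p))) P)
    (Q : Place (ResidueField A) (MrmFk M A)) :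
    ∃ m : ℤ, mrmSlope₁ M A hpM hA f Q = mrmSlope₁ M A hpM hA f₀ Q + (p : ℤ) * m := by
  obtain ⟨g, hg0, hg⟩ := mrp_mk_eq_mk_iff.1 hDD
  have hfg0 : f₀ * g ^ p ≠ 0 := mul_ne_zero hf₀ (pow_ne_zero p hg0)
  have hq0 : f / (f₀ * g ^ p) ≠ 0 := div_ne_zero hf hfg0
  have hord : ∀ v : Place Qb ↥(modularFunctionFieldBar (M * p)),
      v.ord (f / (f₀ * g ^ p)) = 0 := by
    intro v
    rw [div_eq_mul_inv, Place.ord_mul v hf (inv_ne_zero hfg0), Place.ord_inv,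
      Place.ord_mul v hf₀ (pow_ne_zero p hg0), mrp_ord_pow, ← hfD v, hf₀D v, ← hg v]
    ring
  obtain ⟨a, ha⟩ := Fermat.Agent.V.v27f_hconst_of_rr (ffg_rr_bar (M * p)) _ hq0 hord
  have ha0 : a ≠ 0 := by
    rintro rfl
    rw [map_zero] at ha
    exact hq0 ha
  have hfeq : f = algebraMap Qb ↥(modularFunctionFieldBar (M * p)) a * (f₀ * g ^ p) := by
    rw [← ha, div_mul_cancel₀ _ hfg0]
  have H := mrm_one M A hpM hA
  refine ⟨mrmSlope₁ M A hpM hA g Q, ?_⟩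
  show mrmSlope Qb _ _ f Q = mrmSlope Qb _ _ f₀ Q + (p : ℤ) * mrmSlope Qb _ _ g Q
  rw [hfeq, mrm_slope_const_mul H ha0 hfg0, mrm_slope_mul H hf₀ (pow_ne_zero p hg0),
    mrm_slope_pow H hg0]

/-! ## The thickness data -/

/-- the hypotheses shared by the two cases: (G1), (ONE-ZERO), (LOC-EQ). -/
structure MrriInputs : Prop where
  reg₁ : MrriReg₁ M A hpM hA hat
  reg₂ : MrriReg₂ M A hpM hA hat
  oz : MrnOneZeroSpec M A hpM hA hat
  loc₁ : MrnLocEq₁Spec M A hpM hA hat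
  loc₂ : MrnLocEq₂Spec M A hpM hA hat
  locN : MrnLocEqNodeSpec M A hpM hA hat

/-! ## The WILD case -/

/-- **(W1), wild case** : for `σ ∈ I₀ ∖ H` with a (P1)-datum, every `x ∈ V` has a Kummer pair
`(D₀, f₀)` whose slopes satisfy `E_i m_i ≡ E_j m_j mod p`. -/
theorem mrri_wild (hI : MrriInputs hpM hA hat)
    {E : Place (ResidueField A) (MrmFk M A) → ℕ} (hE : MrmIsThick M A hpM hA hat E)
    {V : AddSubgroup (JZero (M * p))} (htors : ∀ x ∈ V, p • x = 0)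
    (hstab : ∀ σ ∈ ffI A, ∀ x ∈ V, σ • x ∈ V) (hshape : MraShape p A V)
    {σ : GQ} (hσ : σ ∈ mraI0 p A) {π c : Qb} (P : MraP1At p A (mraH A V) σ π c)
    {x : JZero (M * p)} (hx : x ∈ V) :
    ∃ (D₀ : Divisor.degZero (K := Qb) (F := ↥(modularFunctionFieldBar (M * p))))
      (f₀ : ↥(modularFunctionFieldBar (M * p))),
      x = Pic0.mk D₀ ∧ f₀ ≠ 0 ∧
      (∀ v : Place Qb ↥(modularFunctionFieldBar (M * p)),
        v.ord f₀ = (p : ℤ) * (D₀ : Divisor Qb ↥(modularFunctionFieldBar (M * p))) v) ∧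
      ∀ i j : ttrkS M p A hpM hA hat, (p : ℤ) ∣
        (E (ttrkSν₁ M p A hpM hA hat i) : ℤ) *
            mrmSlope₁ M A hpM hA f₀ (ttrkSν₁ M p A hpM hA hat i)
          - (E (ttrkSν₁ M p A hpM hA hat j) : ℤ) *
            mrmSlope₁ M A hpM hA f₀ (ttrkSν₁ M p A hpM hA hat j) := by
  classical
  have hp : p.Prime := Fact.out
  have hσI : σ ∈ ffI A := hσ.1
  have hP : MrgP1 A (mraH A V) σ π := mrg_P1_of_top hstab hσI P
  have hHI : mraH A V ≤ A.inertiaSubgroupIn ℚ := mrg_mraH_le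
  obtain ⟨D₀, f₀, h₂, hxD, hDfix, hf₀FL, hf₀0, hf₀D, hh₂FL, hh₂0, hh₂D⟩ :=
    mrg_descent_of_top htors hstab hshape hσ hx
  refine ⟨D₀, f₀, hxD, hf₀0, hf₀D, fun i j => ?_⟩
  -- the model
  have Mo := mrri_model hpM hA hat hI.reg₁ hI.reg₂ hP hHI i
  -- (γ)
  have hcfix : MrgFix (mraH A V) c := fun τ hτ => P.cW.2 τ (hHI hτ)
  obtain ⟨γ, hγ, hγ0⟩ := mrri_gamma hpM hA Mo hcfix P.cu P.pic
  haveI : CharP (ResidueField A) p := s18ac_charP A hA
  -- thickness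
  choose u w ε κ hC hκv using hE
  have hslope := mrs_slope0_inst M A hpM hA hat hI.oz u w ε κ hC
  have hr : ¬ p ∣ p - 1 := by
    intro h
    have h2 := hp.two_le
    have := Nat.le_of_dvd (by omega) h
    omega
  have hκ : ∀ s, A.valuation (κ s) =
      A.valuation π ^ (E (ttrkSν₁ M p A hpM hA hat s) * (p * (p - 1))) := by
    intro s
    rw [hκv s, ← P.ram, ← pow_mul, mul_comm]
  -- normalisations
  obtain ⟨c₁, hc₁, hf₁⟩ := ttra_sc₁ M A hpM hA (ttrvp_tb1' M A hpM hA) f₀ hf₀0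
  obtain ⟨c₂, hc₂, hf₂⟩ := ttra_sc₂ M A hpM hA (ttrvp_tb1' M A hpM hA) f₀ hf₀0
  have hD2 : ∀ R : Place Qb ↥(modularFunctionFieldBar (M * p)), R.ord h₂ =
      ((ffipG (M * p) σ * ffipG (M * p) σ) •
          (D₀ : Divisor Qb ↥(modularFunctionFieldBar (M * p)))
        - (2 : ℤ) • (ffipG (M * p) σ • (D₀ : Divisor Qb ↥(modularFunctionFieldBar (M * p))))
        + (D₀ : Divisor Qb ↥(modularFunctionFieldBar (M * p)))) R := by
    intro R
    rw [hh₂D R, mrgD2, mul_smul]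
  have key := mrr_W1_all_wild Mo
    (fun Q R hR => mrg_cen₁_inv_smul hpM hA hat hσI Q hR)
    (fun Q R hR => mrg_cen₂_inv_smul hpM hA hat hσI Q hR)
    (fun s R hR => mrg_cenS_inv_smul hpM hA hat hσI s hR)
    γ hγ hγ0 hp (D₀ : Divisor Qb ↥(modularFunctionFieldBar (M * p))) hh₂FL hh₂0 hD2
    (fun Q hQ => mrri_loc₁ hpM hA hat hI.loc₁ hHI _ hDfix Q hQ)
    (fun Q hQ => mrri_loc₂ hpM hA hat hI.loc₂ hHI _ hDfix Q hQ)
    (fun s => mrri_loc_node hpM hA hat hI.locN hHI _ hDfix s)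
    κ (fun s => E (ttrkSν₁ M p A hpM hA hat s)) hr hκ hslope hf₀0 hf₀D hc₁ hc₂ hf₁ hf₂ i j
  have H1 := mrm_one M A hpM hA
  rw [show mrmSlope₁ M A hpM hA f₀ (ttrkSν₁ M p A hpM hA hat i) = _ from
      mrm_slope_eq_of_unit H1 hf₀0 hc₁ hf₁ _,
    show mrmSlope₁ M A hpM hA f₀ (ttrkSν₁ M p A hpM hA hat j) = _ from
      mrm_slope_eq_of_unit H1 hf₀0 hc₁ hf₁ _]
  exact key

/-! ## The TAME (split) case -/

/-- **(W1), tame case** : if `I₀` fixes `V` pointwise, every `x ∈ V` has a Kummer pair `(D₀, f₀)`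
rational over `K₀ = ℚ̄^{I₀}`, and its slopes satisfy `E_i m_i ≡ E_j m_j mod p` (uniformiser
`ϖ = 1 - ζ`, `v(κ_s) = v(ϖ)^{E_s (p - 1)}`). -/
theorem mrri_tame (hI : MrriInputs hpM hA hat)
    {E : Place (ResidueField A) (MrmFk M A) → ℕ} (hE : MrmIsThick M A hpM hA hat E)
    {V : AddSubgroup (JZero (M * p))} (htors : ∀ x ∈ V, p • x = 0)
    (hfixV : ∀ σ ∈ mraI0 p A, ∀ x ∈ V, σ • x = x)
    {x : JZero (M * p)} (hx : x ∈ V) :
    ∃ (D₀ : Divisor.degZero (K := Qb) (F := ↥(modularFunctionFieldBar (M * p))))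
      (f₀ : ↥(modularFunctionFieldBar (M * p))),
      x = Pic0.mk D₀ ∧ f₀ ≠ 0 ∧
      (∀ v : Place Qb ↥(modularFunctionFieldBar (M * p)),
        v.ord f₀ = (p : ℤ) * (D₀ : Divisor Qb ↥(modularFunctionFieldBar (M * p))) v) ∧
      ∀ i j : ttrkS M p A hpM hA hat, (p : ℤ) ∣
        (E (ttrkSν₁ M p A hpM hA hat i) : ℤ) *
            mrmSlope₁ M A hpM hA f₀ (ttrkSν₁ M p A hpM hA hat i)
          - (E (ttrkSν₁ M p A hpM hA hat j) : ℤ) *
            mrmSlope₁ M A hpM hA f₀ (ttrkSν₁ M p A hpM hA hat j) := by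
  classical
  have hp : p.Prime := Fact.out
  -- the uniformiser `1 - ζ`
  obtain ⟨ζ, hζ, hζ1⟩ : ∃ ζ : Qb, ζ ^ p = 1 ∧ ζ ≠ 1 := by
    haveI : NeZero (p : Qb) := ⟨Nat.cast_ne_zero.mpr hp.ne_zero⟩
    obtain ⟨ζ, hζ⟩ := HasEnoughRootsOfUnity.exists_primitiveRoot Qb p
    exact ⟨ζ, hζ.pow_eq_one, hζ.ne_one hp.one_lt⟩
  have hπfix : MrgFix (mraI0 p A) (1 - ζ) := mrep_split_fix hζ
  have hπ0 : (1 : Qb) - ζ ≠ 0 := mret_one_sub_zeta_ne hζ1
  have hπm : (1 : Qb) - ζ ∈ A.nonunits := mret_val_zeta_lt hp hA hζ hζ1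
  have hHI : mraI0 p A ≤ A.inertiaSubgroupIn ℚ := fun σ hσ => hσ.1
  have hvg₂ := mrg_isU_of_vg (mrg_vg₂_of_unif hpM hA hπfix hπ0
    (mrep_split_unif hp hA hζ hζ1))
  -- descent with `σ = 1`
  obtain ⟨D₀, f₀, h₂, hxD, hDfix, hf₀FL, hf₀0, hf₀D, -, -, -⟩ :=
    mrg_descent (N := M * p) (H := mraI0 p A) 1 p (NeZero.ne p)
      (fun τ => by rw [one_mul, inv_one, mul_one]) x (htors x hx)
      (fun τ hτ => hfixV τ hτ x hx)
      (by rw [one_smul, one_smul, two_zsmul]; abel)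
  refine ⟨D₀, f₀, hxD, hf₀0, hf₀D, fun i j => ?_⟩
  -- thickness
  choose u w ε κ hC hκv using hE
  have hslope := mrs_slope0_inst M A hpM hA hat hI.oz u w ε κ hC
  have hr : ¬ p ∣ p - 1 := by
    intro h
    have h2 := hp.two_le
    have := Nat.le_of_dvd (by omega) h
    omega
  have hκ : ∀ s, A.valuation (κ s) =
      A.valuation (1 - ζ) ^ (E (ttrkSν₁ M p A hpM hA hat s) * (p - 1)) := by
    intro s
    rw [hκv s, ← mret_val_zeta (A := A) hp hζ hζ1, ← pow_mul, mul_comm]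
  -- normalisations
  obtain ⟨c₁, hc₁, hf₁⟩ := ttra_sc₁ M A hpM hA (ttrvp_tb1' M A hpM hA) f₀ hf₀0
  obtain ⟨c₂, hc₂, hf₂⟩ := ttra_sc₂ M A hpM hA (ttrvp_tb1' M A hpM hA) f₀ hf₀0
  have key := mrr_W1_all_tame (A := A) (V₁ := ttrV1 M A hpM hA) (V₂ := ttraV2 M A hpM hA)
    (red₁ := ttraRed1 M A hpM hA) (ν₁ := ttrkSν₁ M p A hpM hA hat)
    (cenN := fun i => {R | ttruCenS M A hpM hA hat i R})
    (mrs_model_inst M A hpM hA).ker₁ hπ0 hπm hp κ
    (fun s => E (ttrkSν₁ M p A hpM hA hat s)) hr hκ hslope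
    (D₀ : Divisor Qb ↥(modularFunctionFieldBar (M * p))) hf₀0 hf₀D hc₁ hc₂ hf₁ hf₂
    (fun s => by
      obtain ⟨q, hq0, hqFL, hqU, hqD⟩ := mrri_loc_node hpM hA hat hI.locN hHI _ hDfix s
      exact ⟨q, hq0, hqU, hvg₂ q hqFL hq0, hqD⟩) i j
  have H1 := mrm_one M A hpM hA
  rw [show mrmSlope₁ M A hpM hA f₀ (ttrkSν₁ M p A hpM hA hat i) = _ from
      mrm_slope_eq_of_unit H1 hf₀0 hc₁ hf₁ _,
    show mrmSlope₁ M A hpM hA f₀ (ttrkSν₁ M p A hpM hA hat j) = _ from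
      mrm_slope_eq_of_unit H1 hf₀0 hc₁ hf₁ _]
  exact key

/-! ## (W1) -/

/-- **(W1), helper26's leaf literal `MrmW1Leaf`**, from (G1), (ONE-ZERO), (LOC-EQ). -/
theorem mrri_W1 (hI : MrriInputs hpM hA hat) : MrmW1Leaf M A hpM hA hat := by
  classical
  intro E hE V htors hstab hshape hP1 D f hDV hf0 hfD
  -- a Kummer pair with the congruences, in either case
  have hpair : ∃ (D₀ : Divisor.degZero (K := Qb) (F := ↥(modularFunctionFieldBar (M * p))))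
      (f₀ : ↥(modularFunctionFieldBar (M * p))),
      Pic0.mk D = Pic0.mk D₀ ∧ f₀ ≠ 0 ∧
      (∀ v : Place Qb ↥(modularFunctionFieldBar (M * p)),
        v.ord f₀ = (p : ℤ) * (D₀ : Divisor Qb ↥(modularFunctionFieldBar (M * p))) v) ∧
      ∀ i j : ttrkS M p A hpM hA hat, (p : ℤ) ∣
        (E (ttrkSν₁ M p A hpM hA hat i) : ℤ) *
            mrmSlope₁ M A hpM hA f₀ (ttrkSν₁ M p A hpM hA hat i)
          - (E (ttrkSν₁ M p A hpM hA hat j) : ℤ) *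
            mrmSlope₁ M A hpM hA f₀ (ttrkSν₁ M p A hpM hA hat j) := by
    by_cases hw : ∃ σ ∈ mraI0 p A, σ ∉ mraH A V
    · obtain ⟨σ, hσ, hσH⟩ := hw
      obtain ⟨π, c, P⟩ := hP1 σ hσ hσH
      exact mrri_wild hpM hA hat hI hE htors hstab hshape hσ P hDV
    · have hfixV : ∀ σ ∈ mraI0 p A, ∀ x ∈ V, σ • x = x := by
        intro σ hσ x hx
        by_contra hne
        exact hw ⟨σ, hσ, fun hH => hne ((Subgroup.mem_inf.1 hH).1 x hx)⟩
      exact mrri_tame hpM hA hat hI hE htors hfixV hDV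
  obtain ⟨D₀, f₀, hDD, hf₀0, hf₀D, hcong⟩ := hpair
  by_cases hne : Nonempty (ttrkS M p A hpM hA hat)
  · obtain ⟨i₀⟩ := hne
    refine ⟨(E (ttrkSν₁ M p A hpM hA hat i₀) : ℤ) *
      mrmSlope₁ M A hpM hA f (ttrkSν₁ M p A hpM hA hat i₀), ?_⟩
    rintro Q ⟨i, rfl⟩
    obtain ⟨m, hm⟩ := mrri_class hpM hA hDD.symm hf0 hf₀0 hfD hf₀D (ttrkSν₁ M p A hpM hA hat i)
    obtain ⟨m₀, hm₀⟩ := mrri_class hpM hA hDD.symm hf0 hf₀0 hfD hf₀D
      (ttrkSν₁ M p A hpM hA hat i₀)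
    obtain ⟨t, ht⟩ := hcong i i₀
    rw [hm, hm₀]
    refine ⟨t + (E (ttrkSν₁ M p A hpM hA hat i) : ℤ) * m
      - (E (ttrkSν₁ M p A hpM hA hat i₀) : ℤ) * m₀, ?_⟩
    linear_combination ht
  · refine ⟨0, ?_⟩
    rintro Q ⟨i, rfl⟩
    exact absurd ⟨i⟩ hne

end Fermat.Agent.MR
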