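import Mathlib
import Fermat.Agent.MR.Rigid.Inst
import Fermat.Agent.MR.Slope.PlugRat
import Fermat.Agent.MR.Slope.PlugReg
import Fermat.Agent.MR.Slope.DiscLeaf
import Fermat.Agent.MR.Slope.Reg2
import Fermat.Agent.MR.Node.OneZero
import Fermat.Agent.MR.Node.Sep
import Fermat.Agent.MR.False.CountJ

/-!
# PROGRAM MR (S44), block `mrr` : (W1) FROM THE OPEN LEAVES ONLY

Owner: helper12.  Namespace `Fermat.Agent.MR`, prefix `mrri`.

`mrri_W1` (`MR/Rigid/Inst.lean`) has six inputs.  Four of them are theorems of other blocks: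

* `MrnLocEqNodeSpec` = helper28 `mrsr_locEqNode` from `MrnCoordSpec` (which follows from the
  thickness function `hE : MrmIsThick` quantified in `MrmW1Leaf`) and `MrnOneZeroSpec`;
* `MrnLocEq₁Spec`, `MrnLocEq₂Spec` = helper28 `mrsr_locEq₁`, `mrsr_locEq₂` from `MrnDisc₁Spec`,
  `MrnDisc₂Spec`;
* `MrriReg₁`, `MrriReg₂` = helper29 `mrsd_reg_v1`, `mrsd_reg_v2` from helper28 `mrsr_reg₁`,
  `mrsr_reg₂` and (SEP) `MrsdSep₁`, `MrsdSep₂`;
* `MrnOneZeroSpec` = helper19 `mrn_oneZero_j` (`5 ≤ p`, the `j`-atlas).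

So: `mrri_W1_of_disc` : (SEP)×2 + (ONE-ZERO) + (DISC)×2 ⟹ `MrmW1Leaf`, any atlas;
`mrri_W1_j` : (SEP)×2 + (DISC)×2 ⟹ `MrmW1Leaf` at the `j`-atlas, `5 ≤ p`;
`mrri_W1_disc_j` : (DISC)×2 ⟹ `MrmW1Leaf` at the `j`-atlas, `5 ≤ p` ((SEP) = helper6
`mrnsp_sep₁_j`, `mrnsp_sep₂_j`);
**`mrri_W1_closed`** : `MrmW1Leaf` at the `j`-atlas, `5 ≤ p`, NO hypothesis ((DISC) = helper23
`mrf_disc₁_j`, `mrf_disc₂_j`, `MR/False/CountJ.lean`).
-/

set_option autoImplicit false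
set_option linter.unusedSectionVars false
set_option linter.unusedVariables false
set_option linter.style.haveILetI false
set_option synthInstance.maxHeartbeats 400000

noncomputable section

namespace Fermat.Agent.MR

open Polynomial ModularCurve AlgebraicCurve IsLocalRing IntermediateField
  Fermat.Agent.G Fermat.Agent.S18 Fermat.Agent.S24 Fermat.Agent.SS Fermat.Agent.FF
  Fermat.Agent.TT Fermat.Agent.S05

local notation "Qb" => AlgebraicClosure ℚ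
local notation "GQ" => (AlgebraicClosure ℚ ≃ₐ[ℚ] AlgebraicClosure ℚ)

variable {M : ℕ} [NeZero M] {p : ℕ} [Fact p.Prime] [NeZero p]
variable {A : ValuationSubring Qb} (hpM : ¬ p ∣ M) (hA : A.LiesOverPrime p)

/-- (G1), first component, from (SEP). -/
theorem mrri_reg₁_of_sep {τ τ' : LaurentSeries ℤ} (hat : GrdAtlas M A τ τ')
    (hSep₁ : MrsdSep₁ M A hpM hA hat) : MrriReg₁ M A hpM hA hat :=
  fun Q hQ f hf hreg =>
    mrsd_reg_v1 M A hpM hA hat (mrsr_reg₁ M A hpM hA hat) hSep₁ Q (fun i h => hQ i h.symm) f hf hreg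

/-- (G1), second component, from (SEP). -/
theorem mrri_reg₂_of_sep {τ τ' : LaurentSeries ℤ} (hat : GrdAtlas M A τ τ')
    (hSep₂ : MrsdSep₂ M A hpM hA hat) : MrriReg₂ M A hpM hA hat :=
  fun Q hQ f hf hreg =>
    mrsd_reg_v2 M A hpM hA hat (mrsr_reg₂ M A hpM hA hat) hSep₂ Q (fun i h => hQ i h.symm) f hf hreg

/-- **(W1) from (SEP), (ONE-ZERO), (DISC)**, any atlas. -/
theorem mrri_W1_of_disc {τ τ' : LaurentSeries ℤ} (hat : GrdAtlas M A τ τ')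
    (hSep₁ : MrsdSep₁ M A hpM hA hat) (hSep₂ : MrsdSep₂ M A hpM hA hat)
    (hOZ : MrnOneZeroSpec M A hpM hA hat)
    (hD₁ : MrnDisc₁Spec M A hpM hA hat) (hD₂ : MrnDisc₂Spec M A hpM hA hat) :
    MrmW1Leaf M A hpM hA hat := by
  intro E hE
  have hCo : MrnCoordSpec M A hpM hA hat := fun i => by
    obtain ⟨u, w, ε, κ, hC, -⟩ := hE i
    exact ⟨u, w, ε, κ, hC⟩
  exact mrri_W1 hpM hA hat
    { reg₁ := mrri_reg₁_of_sep hpM hA hat hSep₁
      reg₂ := mrri_reg₂_of_sep hpM hA hat hSep₂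
      oz := hOZ
      loc₁ := mrsr_locEq₁ M A hpM hA hat hD₁
      loc₂ := mrsr_locEq₂ M A hpM hA hat hD₂
      locN := mrsr_locEqNode M A hpM hA hat hCo hOZ } E hE

/-- **(W1) at the `j`-atlas, `5 ≤ p`, from (SEP) and (DISC) only.** -/
theorem mrri_W1_j (h5 : 5 ≤ p) {σ' : LaurentSeries ℤ} (hat : GrdAtlas M A (jqModC ℤ) σ')
    (hSep₁ : MrsdSep₁ M A hpM hA hat) (hSep₂ : MrsdSep₂ M A hpM hA hat)
    (hD₁ : MrnDisc₁Spec M A hpM hA hat) (hD₂ : MrnDisc₂Spec M A hpM hA hat) :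
    MrmW1Leaf M A hpM hA hat :=
  mrri_W1_of_disc hpM hA hat hSep₁ hSep₂ (mrn_oneZero_j M A hpM hA h5 hat) hD₁ hD₂

/-- **(W1) at the `j`-atlas, `5 ≤ p`, from (DISC) only.** -/
theorem mrri_W1_disc_j (h5 : 5 ≤ p) {σ' : LaurentSeries ℤ} (hat : GrdAtlas M A (jqModC ℤ) σ')
    (hD₁ : MrnDisc₁Spec M A hpM hA hat) (hD₂ : MrnDisc₂Spec M A hpM hA hat) :
    MrmW1Leaf M A hpM hA hat :=
  mrri_W1_j hpM hA h5 hat (mrnsp_sep₁_j M A hpM hA h5 hat) (mrnsp_sep₂_j M A hpM hA h5 hat) hD₁ hD₂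

/-- **(W1), CLOSED at the `j`-atlas, `5 ≤ p`** ((DISC) = helper23 `mrf_disc₁_j`, `mrf_disc₂_j`). -/
theorem mrri_W1_closed (h5 : 5 ≤ p) {σ' : LaurentSeries ℤ} (hat : GrdAtlas M A (jqModC ℤ) σ') :
    MrmW1Leaf M A hpM hA hat :=
  mrri_W1_disc_j hpM hA h5 hat (mrf_disc₁_j M A hpM hA hat) (mrf_disc₂_j M A hpM hA hat)

end Fermat.Agent.MR
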